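import Fermat.Agent.LT.T6.H783.BadSpec
import Fermat.Agent.LT.T6.H288.HypSpec
import Fermat.Agent.LT.T6.H159.NormSpec

/-!
# Row LT, tower T6, leaf T6.18i `CenQuatC783` (the QUATERNION case of `BadMatchC`): SUB-SPEC
(helper385), OFF-MAIN

Definitions + frozen sub-leaf Props.  The PROVED tops are in `QuatTop.lean`:

* `cenQuat_of_leaves385 : H288.CartanInvC → SphFinSuppC385 → EPOrbC385 → HypNonNormC385 →
    EllNormC385 → TwDescC385 → H783.CenQuatC783`
* `ellNorm_of_cases385 : H159.NormCritC → EllNormRamC385 → EllNormC385`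
* `ellNormRam_of_core385 : SqrtNearC385 → QuatCoreRamC385 → EllNormRamC385`
* `twDesc_of_leaves385 : TwReduceC385 → TwDescOrbC385 → TwDescC385`

Imports: `T6/Spec.lean` (helper22), `H783/BadSpec.lean`, `H288/HypSpec.lean`,
`H159/NormSpec.lean` (+ `VanishSpec.lean`), byte-identical copies.

## Setting

`k'/k` a QUADRATIC extension of local fields (`l = 2`, `e ∈ {1, 2}`), `σ = s`, `z ∈ k^×` NOT a norm
from `k'`, `φ` bi-`U'(n)`-invariant of finite support on `G' = GL₂(k')`.  Wanted: `N`, `m`, `f`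
with `O_γ(f) = TO_δ(φ)` (`γ ∼ N δ`) and `O_γ(f) = 0` (`γ` not a norm) for the regular `γ` in the
`χ`-ball `|tr γ - 2z| ≤ exp(-N)`, `|det γ - z²| ≤ exp(-N)`.

## The proof ([L] §6, Lemma 6.2 and the discussion of the quaternion algebra; Arthur–Clozel I.3)

`δ₀ = [[0, z], [1, 0]]`, `N δ₀ = δ₀ σ(δ₀) = z`.  `D = {x ∈ M₂(k') : x δ₀ = δ₀ σ(x)}
= {[[a, z σ(b)], [b, σ(a)]]}` is the quaternion algebra `(k'/k, z)`, a DIVISION algebra because
`Nrd = N a - z N b` and `z` is not a norm.  `D^×` is the twisted centraliser of `δ₀`.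

1. **NORMS NEAR `z`** (regular `γ` in a small `χ`-ball around `(2z, z²)`):
   * `γ` hyperbolic ⇒ `γ` is NOT a norm (`HypNonNormC385`): `γ ∼ N δ` gives `δ ∼_σ diag(d₁, d₂)`,
     `N d₁ = t₁` (`H288.DiagReduceC`), and `t₁/z ∈ 1 + 4ϖ𝒪 ⊂ (k^×)² ⊂ N k'^×`.
   * `γ` elliptic ⇒ `γ` IS a norm (`EllNormC385`).  `e = 1`: `H159.NormCritC` (`ord det γ` is
     even).  `e = 2` (`EllNormRamC385`): `γ / z = w²`, `w = a + b γ` (`SqrtNearC385`, Newton) and
     `z = ζ σ(ζ)` with `ζ ∈ k'[γ]^×` (`QuatCoreRamC385`: if `k[γ] ≅ k'`, `k'[γ] ≅ k' × k'` with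
     `σ(p, q) = (σ q, σ p)` and `ζ = (z, 1)`; otherwise `M = k'[γ]` is a biquadratic field and
     `k^× ⊂ N_{M/k[γ]} M^×` -- LOCAL CLASS FIELD THEORY for quadratic extensions); `δ = ζ w`.
2. **THE FUNCTION** (`EPOrbC385`): the SPHERICAL function
   `f₀ = 1_{K ϖ^{(j+1, j-1)} K} - (q - 1) 1_{K ϖ^{(j, j)} K}`, `j = ord z` (the `K`-spherical
   projection of twice the Euler–Poincaré function) has, at the regular `γ` near `z`, the orbital
   integrals `2` (`k[γ]` unramified field), `1` (ramified field), `0` (hyperbolic): if `V` is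
   the number of fixed vertices modulo the torus, the number of vertices at distance `1` from
   the fixed tree is `(q - 1) V + 2`, `+ 1`, `+ 0`.  In the formulas of the fundamental lemma:
   `wFix q V j (j+1, j-1) - (q-1) wFix q V j (j, j) = 2` (H60.OrbEllUnrC),
   `ellWeight q (j+1, j-1) (2j) Θ - (q-1) ellWeight q (j, j) (2j) Θ = 1` (H847.EllOrbC),
   `constTerm q f₀ j j = 0` (H288.OrbSumDiagC).  LEVEL `m = 0`.
3. **TWISTED DESCENT TO `D^×`** (`TwDescC385`): for `γ` elliptic near `z`, `γ ∼ N δ`: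
   `TO_δ(φ) = c₀ · #(k[γ]^× \ D^× / 𝒪_D^×)`, the number of double cosets being `2` for `k[γ]/k`
   unramified and `1` for `k[γ]/k` ramified, with
   `c₀ = ∑_{x ∈ D^× \ G' / U'(n)} φ(x⁻¹ δ₀ σ(x)) [𝒪_D^× : D^× ∩ x U'(n) x⁻¹]`.
   * `TwReduceC385`: `δ ∼_σ w δ₀` with `w ∈ D^×` as close to `1` as we want.  (`N δ = γ` after
     `σ`-conjugation; `u = γ/z = w₁²`, `w₁ = a + b γ` near `1`; `ζ = δ w₁⁻¹` commutes with `γ` and
     `ζ σ(ζ) = z`; `F = ζ ∘ σ` is `σ`-semilinear on `k'²` with `F² = z`, and `F v ∉ k' v` because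
     `z` is not a norm, so `x = [v | F v]` is invertible and `x⁻¹ ζ σ(x) = δ₀`; then
     `δ = x (w δ₀) σ(x)⁻¹` with `w = x⁻¹ w₁ x ∈ D^×`; `Nrd (w - 1) = 1 - tr w₁ + det w₁` is small and
     `Nrd` is anisotropic with `z·(1 + ϖ^{N₀} 𝒪) ∩ N k'^× = ∅`, so the entries of `w - 1` are
     small.)
   * `TwDescOrbC385`: for `w ∈ D^× ∩ U'(M)`, `M` large: the twisted centraliser of `w δ₀` is
     `k[w]^× ⊂ D^×`; UNIFORM PROPERNESS: `{x : x⁻¹ w δ₀ σ(x) ∈ supp φ} ⊂ D^× C U'(n)` with a finite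
     `C` independent of `w` (`w δ₀ σ` has the same fixed point on the tree of `k'` as `δ₀ σ`: the
     midpoint of an edge inverted by `D^×` if `e = 1`, a vertex if `e = 2`); `1 + Π^M 𝒪_D` is normal
     in `D^×`, so `φ(x⁻¹ w δ₀ σ(x)) = φ(x⁻¹ δ₀ σ(x))` for all `x`; count the
     `(k[w]^×, U')`-double cosets in each `(D^×, U')`-double coset with their weights:
     `∑_{d ∈ L^× \ D^× / Γ} [𝒪_L^× : L^× ∩ d Γ d⁻¹] = #(L^× \ D^× / 𝒪_D^×) · [𝒪_D^× : Γ]`.

All Props are TRUE statements of mathematics.  `QuatCoreRamC385` in the WILD case (`e = 2`,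
residue characteristic `2`) is not needed by the wall (`ℚ(√-3)/ℚ` is ramified at `3` only) but
is part of `BadMatchC` as stated.
-/

set_option autoImplicit false

open scoped Matrix

noncomputable section

namespace Fermat.Agent.LT.T6.H385

open Fermat.Agent.LT.T6 Fermat.Agent.LT.T6.H783

/-! ## Definitions -/

/-- The additive valuation `ord x = - log v(x)`. -/
def ord385 {k : Type} [Field k] [Valued k Γ₀] (x : k) : ℤ := - WithZero.log (Valued.v x)

open Classical in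
/-- The multiplicity `#(k[γ]^× \ D^× / 𝒪_D^×)` for elliptic `γ` (`2` if `k[γ]/k` is unramified,
`1` if it is ramified), and `0` for hyperbolic `γ`. -/
def quatMult385 (k : Type) [Field k] [Valued k Γ₀] (γ : GL (Fin 2) k) : ℂ :=
  if HasEigen k γ then 0 else if HasRamUnif k γ then 1 else 2

/-- The spherical function `1_{K ϖ^{(j+1, j-1)} K} - (q - 1) 1_{K ϖ^{(j, j)} K}` as a function of
the Cartan invariant. -/
def epFun385 (q : ℕ) (j : ℤ) : (ℤ × ℤ) →₀ ℂ :=
  Finsupp.single (j + 1, j - 1) 1 - Finsupp.single (j, j) ((q : ℂ) - 1)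

/-- The hypotheses on the fields: `k'/k` quadratic extension of local fields, ramification
index `e`. -/
structure QuadData385 (k k' : Type) [Field k] [Field k'] [Valued k Γ₀] [Valued k' Γ₀]
    (q e : ℕ) (i : k →+* k') (s : k' ≃+* k') : Prop where
  hk : IsLocalField k q
  hk' : IsLocalField k' (q ^ (2 / e))
  ext : IsLocalExt k k' 2 e i s

/-! ## First level: the six leaves of `cenQuat_of_leaves385` -/

/-- **Q0 (finite support of spherical functions).**  A function of the Cartan invariant with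
finite support on `ℤ × ℤ` is supported on finitely many cosets `x GL₂(𝒪)`
(`K ϖ^{(a,b)} K` is a finite union of cosets: Hermite normal form). -/
def SphFinSuppC385 : Prop :=
  ∀ (k : Type) [Field k] [Valued k Γ₀] (q : ℕ), IsLocalField k q →
    ∀ F : (ℤ × ℤ) →₀ ℂ, HasFinSupp (InU 0) (fun g : GL (Fin 2) k => F (cartan g))

/-- **Q3 (the orbital integrals of the spherical Euler–Poincaré function near the centre).** -/
def EPOrbC385 : Prop :=
  ∀ (k : Type) [Field k] [Valued k Γ₀] (q : ℕ), IsLocalField k q →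
    ∀ z : k, z ≠ 0 → ∃ N : ℤ, ∀ γ : GL (Fin 2) k, IsReg γ →
      InChiBall783 (2 * z) (z ^ 2) N γ →
      ∀ c' : ℂ, IsOrbSum 0 (fun g => epFun385 q (ord385 z) (cartan g)) γ c' →
        c' = quatMult385 k γ

/-- **Q1a (near a central non-norm the hyperbolic regular elements are not norms).** -/
def HypNonNormC385 : Prop :=
  ∀ (k k' : Type) [Field k] [Field k'] [Valued k Γ₀] [Valued k' Γ₀] (q e : ℕ)
    (i : k →+* k') (s : k' ≃+* k'), QuadData385 k k' q e i s →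
    ∀ z : k, z ≠ 0 → ¬ IsFieldNorm783 2 i s z →
      ∃ N : ℤ, ∀ γ : GL (Fin 2) k, IsReg γ → InChiBall783 (2 * z) (z ^ 2) N γ →
        HasEigen k γ → ¬ IsNormFrom 2 i s γ

/-- **Q1b (near a central element the elliptic regular elements are norms).** -/
def EllNormC385 : Prop :=
  ∀ (k k' : Type) [Field k] [Field k'] [Valued k Γ₀] [Valued k' Γ₀] (q e : ℕ)
    (i : k →+* k') (s : k' ≃+* k'), QuadData385 k k' q e i s →
    ∀ z : k, z ≠ 0 →
      ∃ N : ℤ, ∀ γ : GL (Fin 2) k, IsReg γ → InChiBall783 (2 * z) (z ^ 2) N γ →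
        ¬ HasEigen k γ → IsNormFrom 2 i s γ

/-- **Q2 (twisted descent to the quaternion algebra).**  The twisted orbit sums of `φ` at the `δ`
with `N δ ∼ γ`, `γ` elliptic regular near the central non-norm `z`, are `c₀` times the number of
double cosets `k[γ]^× \ D^× / 𝒪_D^×`. -/
def TwDescC385 : Prop :=
  ∀ (k k' : Type) [Field k] [Field k'] [Valued k Γ₀] [Valued k' Γ₀] (q e : ℕ)
    (i : k →+* k') (s : k' ≃+* k') (n : ℕ) (φ : GL (Fin 2) k' → ℂ),
    BadData783 k k' q 2 e i s n φ →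
    ∀ z : k, z ≠ 0 → ¬ IsFieldNorm783 2 i s z →
      ∃ (N : ℤ) (c₀ : ℂ), ∀ (δ : GL (Fin 2) k') (γ : GL (Fin 2) k) (c : ℂ), IsReg γ →
        InChiBall783 (2 * z) (z ^ 2) N γ → ¬ HasEigen k γ →
        IsConj (twNorm s 2 δ) (Matrix.GeneralLinearGroup.map i γ) →
        IsTwOrbSum s n φ δ c → c = c₀ * quatMult385 k γ

/-! ## Second level: `EllNormC385` -/

/-- **Q1b, ramified case** (`e = 2`). -/
def EllNormRamC385 : Prop :=
  ∀ (k k' : Type) [Field k] [Field k'] [Valued k Γ₀] [Valued k' Γ₀] (q : ℕ)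
    (i : k →+* k') (s : k' ≃+* k'), QuadData385 k k' q 2 i s →
    ∀ z : k, z ≠ 0 →
      ∃ N : ℤ, ∀ γ : GL (Fin 2) k, IsReg γ → InChiBall783 (2 * z) (z ^ 2) N γ →
        ¬ HasEigen k γ → IsNormFrom 2 i s γ

/-- **Q1b.1 (square root near the centre; Newton iteration in `𝒪[γ/z]`).**  For `γ` in a small
`χ`-ball around `(2z, z²)` there are `a, b ∈ k` with `(a + b γ)² = γ / z`; moreover `a + b γ` is
as close to `1` as we want in the sense `|tr - 2| ≤ exp(-M)`, `|det - 1| ≤ exp(-M)`. -/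
def SqrtNearC385 : Prop :=
  ∀ (k : Type) [Field k] [Valued k Γ₀] (q : ℕ), IsLocalField k q →
    ∀ z : k, z ≠ 0 → ∀ M : ℕ, ∃ N : ℤ, ∀ γ : GL (Fin 2) k,
      InChiBall783 (2 * z) (z ^ 2) N γ →
      ∃ (w : GL (Fin 2) k) (a b : k),
        (w : Matrix (Fin 2) (Fin 2) k) = a • (1 : Matrix (Fin 2) (Fin 2) k)
          + b • (γ : Matrix (Fin 2) (Fin 2) k) ∧
        (w : Matrix (Fin 2) (Fin 2) k) * (w : Matrix (Fin 2) (Fin 2) k)
          = z⁻¹ • (γ : Matrix (Fin 2) (Fin 2) k) ∧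
        InChiBall783 (2 : k) (1 : k) (M : ℤ) w

/-- **Q1b.2 (LOCAL CLASS FIELD THEORY, quadratic case, matrix form).**  `k'/k` RAMIFIED quadratic,
`γ ∈ GL₂(k)` regular ELLIPTIC, `z ∈ k^×`: there is `ζ ∈ k'[γ]^×` with `ζ σ(ζ) = z`.
(`k[γ] ≅ k'`: `ζ = (z, 1)` in `k'[γ] ≅ k' × k'`.  Otherwise `M = k'[γ]` is a field, biquadratic
over `k`, and `k^× ⊂ N_{M/k[γ]}(M^×)`: the norm groups of the two other quadratic subfields are
two DIFFERENT subgroups of index `2` of `k^×`.) -/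
def QuatCoreRamC385 : Prop :=
  ∀ (k k' : Type) [Field k] [Field k'] [Valued k Γ₀] [Valued k' Γ₀] (q : ℕ)
    (i : k →+* k') (s : k' ≃+* k'), QuadData385 k k' q 2 i s →
    ∀ z : k, z ≠ 0 → ∀ γ : GL (Fin 2) k, IsReg γ → ¬ HasEigen k γ →
      ∃ (ζ : GL (Fin 2) k') (a b : k'),
        (ζ : Matrix (Fin 2) (Fin 2) k') = a • (1 : Matrix (Fin 2) (Fin 2) k')
          + b • ((Matrix.GeneralLinearGroup.map i γ : GL (Fin 2) k') :
              Matrix (Fin 2) (Fin 2) k') ∧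
        (ζ : Matrix (Fin 2) (Fin 2) k') * ((glAut s ζ : GL (Fin 2) k') :
            Matrix (Fin 2) (Fin 2) k') = (i z) • (1 : Matrix (Fin 2) (Fin 2) k')

/-! ## Second level: `TwDescC385` -/

/-- `δ₀ = [[0, z], [1, 0]]` (as a predicate on an element of `GL₂`). -/
def IsQuatBase385 {k' : Type} [Field k'] (z : k') (δ₀ : GL (Fin 2) k') : Prop :=
  (δ₀ : Matrix (Fin 2) (Fin 2) k') = !![0, z; 1, 0]

/-- `w` lies in `D^×`, the twisted centraliser of `δ₀`: `w δ₀ = δ₀ σ(w)`. -/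
def InQuat385 {k' : Type} [Field k'] (s : k' ≃+* k') (δ₀ w : GL (Fin 2) k') : Prop :=
  w * δ₀ = δ₀ * glAut s w

/-- **Q2.1 (reduction to `w δ₀`, `w ∈ D^×` near `1`; algebra + Newton).** -/
def TwReduceC385 : Prop :=
  ∀ (k k' : Type) [Field k] [Field k'] [Valued k Γ₀] [Valued k' Γ₀] (q e : ℕ)
    (i : k →+* k') (s : k' ≃+* k'), QuadData385 k k' q e i s →
    ∀ z : k, z ≠ 0 → ¬ IsFieldNorm783 2 i s z → ∀ M : ℕ,
      ∃ N : ℤ, ∀ (δ : GL (Fin 2) k') (γ : GL (Fin 2) k), IsReg γ →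
        InChiBall783 (2 * z) (z ^ 2) N γ →
        IsConj (twNorm s 2 δ) (Matrix.GeneralLinearGroup.map i γ) →
        ∃ w δ₀ : GL (Fin 2) k', IsQuatBase385 (i z) δ₀ ∧ InQuat385 s δ₀ w ∧ InU M w ∧
          IsTwConj s δ (w * δ₀)

/-- **Q2.2 (the descent identity for the orbit sums).** -/
def TwDescOrbC385 : Prop :=
  ∀ (k k' : Type) [Field k] [Field k'] [Valued k Γ₀] [Valued k' Γ₀] (q e : ℕ)
    (i : k →+* k') (s : k' ≃+* k') (n : ℕ) (φ : GL (Fin 2) k' → ℂ),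
    BadData783 k k' q 2 e i s n φ →
    ∀ z : k, z ≠ 0 → ¬ IsFieldNorm783 2 i s z →
      ∃ (M : ℕ) (c₀ : ℂ), ∀ (w δ₀ : GL (Fin 2) k') (γ : GL (Fin 2) k) (c : ℂ),
        IsQuatBase385 (i z) δ₀ → InQuat385 s δ₀ w → InU M w →
        IsReg γ → ¬ HasEigen k γ →
        IsConj (twNorm s 2 (w * δ₀)) (Matrix.GeneralLinearGroup.map i γ) →
        IsTwOrbSum s n φ (w * δ₀) c → c = c₀ * quatMult385 k γ

end Fermat.Agent.LT.T6.H385

end
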