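import Fermat.Agent.LT.T6.H385.DescSpec

/-!
# Row LT, tower T6, leaf T6.18i.6a `DescAbsC385` (the abstract descent), helper385, OFF-MAIN

`descAbs385 : DescAbsC385` (VERBATIM Prop of `H385/DescSpec.lean`).  Pure group theory.
-/

set_option autoImplicit false
set_option linter.unusedVariables false
set_option linter.unusedSectionVars false

noncomputable section

namespace Fermat.Agent.LT.T6.H385

open Fermat.Agent.LT.T6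

section Abs

variable {Γ : Type} [Group Γ]

/-- Twisted conjugation `x⁻¹ δ s(x)`. -/
def tw385 (s : Γ →* Γ) (x δ : Γ) : Γ := x⁻¹ * δ * s x

theorem tw_mul385 (s : Γ →* Γ) (a b δ : Γ) : tw385 s (a * b) δ = tw385 s b (tw385 s a δ) := by
  unfold tw385
  rw [map_mul]
  group

theorem tw_one385 (s : Γ →* Γ) (δ : Γ) : tw385 s 1 δ = δ := by
  unfold tw385
  simp

theorem tw_inv385 (s : Γ →* Γ) (a δ : Γ) : tw385 s a⁻¹ (tw385 s a δ) = δ := by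
  rw [← tw_mul385, mul_inv_cancel, tw_one385]

theorem tw_inv'385 (s : Γ →* Γ) (a δ : Γ) : tw385 s a (tw385 s a⁻¹ δ) = δ := by
  rw [← tw_mul385, inv_mul_cancel, tw_one385]

/-- The coset `a U` as a set. -/
def cos385 (U : Γ → Prop) (a : Γ) : Set Γ := {g : Γ | ∃ u : Γ, U u ∧ g = a * u}

/-- The set of cosets `t U`, `t ∈ T_y^c`. -/
def cosSet385 (U : Γ → Prop) (C : Γ → Γ → Prop) (y : Γ) : Set (Set Γ) :=
  {c : Set Γ | ∃ t : Γ, C y t ∧ c = cos385 U t}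

theorem cIndex_eq385 (U : Γ → Prop) (C : Γ → Γ → Prop) (y : Γ) :
    cIndex U C y = (cosSet385 U C y).ncard := rfl

variable {s : Γ →* Γ} {U : Γ → Prop} {C : Γ → Γ → Prop} {δ₀ δ₁ : Γ} {m : ℕ}

theorem mem_cos_self385 (hS : DescSetting385 s U C δ₀ δ₁ m) (a : Γ) : a ∈ cos385 U a :=
  ⟨1, hS.U_one, by simp⟩

theorem cos_eq_iff385 (hS : DescSetting385 s U C δ₀ δ₁ m) (a b : Γ) :
    cos385 U a = cos385 U b ↔ U (a⁻¹ * b) := by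
  constructor
  · intro h
    have hb : b ∈ cos385 U a := by
      rw [h]
      exact mem_cos_self385 hS b
    obtain ⟨u, hu, rfl⟩ := hb
    simpa using hu
  · intro h
    ext g
    constructor
    · rintro ⟨u, hu, rfl⟩
      refine ⟨(a⁻¹ * b)⁻¹ * u, hS.U_mul _ _ (hS.U_inv _ h) hu, by group⟩
    · rintro ⟨u, hu, rfl⟩
      exact ⟨a⁻¹ * b * u, hS.U_mul _ _ h hu, by group⟩

theorem cos_mul_right385 (hS : DescSetting385 s U C δ₀ δ₁ m) (a u : Γ) (hu : U u) :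
    cos385 U (a * u) = cos385 U a := by
  rw [cos_eq_iff385 hS]
  have : (a * u)⁻¹ * a = u⁻¹ := by group
  rw [this]
  exact hS.U_inv _ hu

/-- Left translation of a coset. -/
theorem image_cos385 (b a : Γ) : (fun g => b * g) '' cos385 U a = cos385 U (b * a) := by
  ext g
  constructor
  · rintro ⟨g', ⟨u, hu, rfl⟩, rfl⟩
    exact ⟨u, hu, by group⟩
  · rintro ⟨u, hu, rfl⟩
    exact ⟨a * u, ⟨u, hu, rfl⟩, by group⟩

theorem image_injective385 (b : Γ) :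
    Function.Injective (fun c : Set Γ => (fun g => b * g) '' c) :=
  Set.image_injective.2 (mul_right_injective b)

/-! ### The membership `C` along twisted conjugation -/

theorem C_tw_iff385 (hS : DescSetting385 s U C δ₀ δ₁ m) (δ x t : Γ) :
    C (tw385 s x δ) t ↔ C δ (x * t * x⁻¹) := by
  constructor
  · intro h
    have h1 := hS.C_conj _ _ x⁻¹ h
    have e1 : (x⁻¹)⁻¹ * tw385 s x δ * s x⁻¹ = δ := by
      have := tw_inv385 s x δ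
      unfold tw385 at this ⊢
      exact this
    rw [e1] at h1
    simpa using h1
  · intro h
    have h1 := hS.C_conj _ _ x h
    have e2 : x⁻¹ * (x * t * x⁻¹) * x = t := by group
    rw [e2] at h1
    exact h1

/-- `U`-twisted equivalence. -/
def Ueq385 (s : Γ →* Γ) (U : Γ → Prop) (y y' : Γ) : Prop := ∃ u : Γ, U u ∧ y' = u⁻¹ * y * s u

theorem Ueq_refl385 (hS : DescSetting385 s U C δ₀ δ₁ m) (y : Γ) : Ueq385 s U y y :=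
  ⟨1, hS.U_one, by simp⟩

theorem Ueq_symm385 (hS : DescSetting385 s U C δ₀ δ₁ m) {y y' : Γ} (h : Ueq385 s U y y') :
    Ueq385 s U y' y := by
  obtain ⟨u, hu, rfl⟩ := h
  refine ⟨u⁻¹, hS.U_inv _ hu, ?_⟩
  rw [map_inv]
  group

theorem Ueq_trans385 (hS : DescSetting385 s U C δ₀ δ₁ m) {y y' y'' : Γ}
    (h : Ueq385 s U y y') (h' : Ueq385 s U y' y'') : Ueq385 s U y y'' := by
  obtain ⟨u, hu, rfl⟩ := h
  obtain ⟨v, hv, rfl⟩ := h'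
  refine ⟨u * v, hS.U_mul _ _ hu hv, ?_⟩
  rw [map_mul]
  group

theorem Ueq_tw385 (hS : DescSetting385 s U C δ₀ δ₁ m) (x u δ : Γ) (hu : U u) :
    Ueq385 s U (tw385 s x δ) (tw385 s (x * u) δ) :=
  ⟨u, hu, by rw [tw_mul385]; rfl⟩

/-- `φ` is constant on the `U`-twisted classes. -/
theorem phi_Ueq385 (hS : DescSetting385 s U C δ₀ δ₁ m) {φ : Γ → ℂ} (hφ : IsBiInv U φ)
    {y y' : Γ} (h : Ueq385 s U y y') : φ y' = φ y := by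
  obtain ⟨u, hu, rfl⟩ := h
  exact hφ _ _ _ (hS.U_inv _ hu) (hS.U_s _ hu)

/-- The index is constant on the `U`-twisted classes. -/
theorem cosSet_Ueq385 (hS : DescSetting385 s U C δ₀ δ₁ m) (y u : Γ) (hu : U u) :
    cosSet385 U C (u⁻¹ * y * s u) = (fun c : Set Γ => (fun g => u⁻¹ * g) '' c) '' cosSet385 U C y := by
  ext c
  constructor
  · rintro ⟨t, ht, rfl⟩
    have ht' : C y (u * t * u⁻¹) := (C_tw_iff385 hS y u t).1 ht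
    refine ⟨cos385 U (u * t * u⁻¹), ⟨_, ht', rfl⟩, ?_⟩
    show (fun g => u⁻¹ * g) '' cos385 U (u * t * u⁻¹) = cos385 U t
    rw [image_cos385]
    have e : u⁻¹ * (u * t * u⁻¹) = t * u⁻¹ := by group
    rw [e, cos_mul_right385 hS _ _ (hS.U_inv _ hu)]
  · rintro ⟨c', ⟨t, ht, rfl⟩, rfl⟩
    have ht' : C (u⁻¹ * y * s u) (u⁻¹ * t * u) := hS.C_conj _ _ u ht
    refine ⟨u⁻¹ * t * u, ht', ?_⟩
    show (fun g => u⁻¹ * g) '' cos385 U t = cos385 U (u⁻¹ * t * u)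
    rw [image_cos385, cos_mul_right385 hS _ _ hu]

theorem cIndex_Ueq385 (hS : DescSetting385 s U C δ₀ δ₁ m) {y y' : Γ} (h : Ueq385 s U y y') :
    cIndex U C y' = cIndex U C y := by
  obtain ⟨u, hu, rfl⟩ := h
  rw [cIndex_eq385, cIndex_eq385, cosSet_Ueq385 hS y u hu]
  exact Set.ncard_image_of_injective _ (image_injective385 u⁻¹)

/-! ### The groups `H`, `H^c`, `T`, `T^c` -/

theorem tw_eq_iff385 (x x' δ : Γ) :
    tw385 s x' δ = tw385 s x δ ↔ tw385 s (x' * x⁻¹) δ = δ := by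
  constructor
  · intro h
    have h1 : tw385 s x⁻¹ (tw385 s x' δ) = tw385 s x⁻¹ (tw385 s x δ) := by rw [h]
    rw [tw_inv385, ← tw_mul385] at h1
    exact h1
  · intro h
    have h1 : tw385 s x' δ = tw385 s x (tw385 s (x' * x⁻¹) δ) := by
      rw [← tw_mul385]
      congr 1
      group
    rw [h1, h]

theorem H_mul385 {δ a b : Γ} (ha : tw385 s a δ = δ) (hb : tw385 s b δ = δ) :
    tw385 s (a * b) δ = δ := by
  rw [tw_mul385, ha, hb]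

theorem H_inv385 {δ a : Γ} (ha : tw385 s a δ = δ) : tw385 s a⁻¹ δ = δ := by
  have := tw_inv385 s a δ
  rw [ha] at this
  exact this

theorem Hc_sub385 (hS : DescSetting385 s U C δ₀ δ₁ m) {o : Γ} (ho : C δ₀ o) :
    tw385 s o δ₀ = δ₀ := hS.C_cent _ _ ho

theorem T_sub385 (hS : DescSetting385 s U C δ₀ δ₁ m) {t : Γ} (ht : tw385 s t δ₁ = δ₁) :
    tw385 s t δ₀ = δ₀ := hS.sub t ht

theorem normal'385 (hS : DescSetting385 s U C δ₀ δ₁ m) {h o : Γ} (hh : tw385 s h δ₀ = δ₀)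
    (ho : C δ₀ o) : C δ₀ (h * o * h⁻¹) := by
  have := hS.normal h⁻¹ o (H_inv385 hh) ho
  simpa using this

/-- The cosets of `y₀ = x₀⁻¹ δ₀ s(x₀)`. -/
theorem cosSet_base385 (hS : DescSetting385 s U C δ₀ δ₁ m) (x₀ : Γ) :
    cosSet385 U C (tw385 s x₀ δ₀)
      = {c : Set Γ | ∃ o : Γ, C δ₀ o ∧ c = cos385 U (x₀⁻¹ * o * x₀)} := by
  ext c
  constructor
  · rintro ⟨t, ht, rfl⟩
    refine ⟨x₀ * t * x₀⁻¹, (C_tw_iff385 hS δ₀ x₀ t).1 ht, ?_⟩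
    congr 1
    group
  · rintro ⟨o, ho, rfl⟩
    refine ⟨x₀⁻¹ * o * x₀, (C_tw_iff385 hS δ₀ x₀ _).2 ?_, rfl⟩
    have e : x₀ * (x₀⁻¹ * o * x₀) * x₀⁻¹ = o := by group
    rw [e]
    exact ho

theorem cosSet_base_finite385 (hS : DescSetting385 s U C δ₀ δ₁ m) (x₀ : Γ) :
    (cosSet385 U C (tw385 s x₀ δ₀)).Finite := by
  rw [cosSet_base385 hS]
  exact hS.fin x₀

/-- The cosets of `y₁ = a⁻¹ δ₁ s(a)`. -/
theorem cosSet_one385 (hS : DescSetting385 s U C δ₀ δ₁ m) (a : Γ) :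
    cosSet385 U C (tw385 s a δ₁)
      = {c : Set Γ | ∃ t : Γ, C δ₁ t ∧ c = cos385 U (a⁻¹ * t * a)} := by
  ext c
  constructor
  · rintro ⟨t, ht, rfl⟩
    refine ⟨a * t * a⁻¹, (C_tw_iff385 hS δ₁ a t).1 ht, ?_⟩
    congr 1
    group
  · rintro ⟨o, ho, rfl⟩
    refine ⟨a⁻¹ * o * a, (C_tw_iff385 hS δ₁ a _).2 ?_, rfl⟩
    have e : a * (a⁻¹ * o * a) * a⁻¹ = o := by group
    rw [e]
    exact ho

/-- The translate by `b = x₀⁻¹ o x₀ u` of a coset of `y₁ = a⁻¹ δ₁ s(a)`, `a = r o x₀ u`. -/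
theorem translate_cos385 (hS : DescSetting385 s U C δ₀ δ₁ m) (x₀ r o u t : Γ) (hu : U u) :
    (fun g => (x₀⁻¹ * o * x₀ * u) * g) '' cos385 U ((r * o * x₀ * u)⁻¹ * t * (r * o * x₀ * u))
      = cos385 U (x₀⁻¹ * (r⁻¹ * t * r * o) * x₀) := by
  rw [image_cos385]
  have e : x₀⁻¹ * o * x₀ * u * ((r * o * x₀ * u)⁻¹ * t * (r * o * x₀ * u))
      = x₀⁻¹ * (r⁻¹ * t * r * o) * x₀ * u := by group
  rw [e, cos_mul_right385 hS _ _ hu]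

/-! ### The count over one class of `δ₀` -/

theorem Ueq_iff_tw385 (y y' : Γ) : Ueq385 s U y y' ↔ ∃ u : Γ, U u ∧ y' = tw385 s u y := Iff.rfl

/-- `tw x δ₀` only depends on `tw x δ₁`. -/
theorem tw_base_eq385 (hS : DescSetting385 s U C δ₀ δ₁ m) {x x' : Γ}
    (h : tw385 s x' δ₁ = tw385 s x δ₁) : tw385 s x' δ₀ = tw385 s x δ₀ := by
  rw [tw_eq_iff385] at h ⊢
  exact hS.sub _ h

open Classical in
theorem fibre_count385 (hS : DescSetting385 s U C δ₀ δ₁ m) (x₀ : Γ) (R₁ : Finset Γ)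
    (hR₁ : ∀ y ∈ R₁, ∀ y' ∈ R₁, Ueq385 s U y y' → y = y')
    (hcov : ∀ h : Γ, tw385 s h δ₀ = δ₀ → ∃ y ∈ R₁, Ueq385 s U y (tw385 s (h * x₀) δ₁)) :
    ∑ y₁ ∈ R₁.filter (fun y₁ => ∃ h u : Γ, tw385 s h δ₀ = δ₀ ∧ U u ∧
          y₁ = tw385 s (h * x₀ * u) δ₁),
        cIndex U C y₁ = m * cIndex U C (tw385 s x₀ δ₀) := by
  obtain ⟨Rm, hcard, hRmH, hRmcov, hRmuniq⟩ := hS.reps
  set Cs : Finset (Set Γ) := (cosSet_base_finite385 hS x₀).toFinset with hCs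
  have hCs_mem : ∀ c : Set Γ, c ∈ Cs ↔ ∃ o : Γ, C δ₀ o ∧ c = cos385 U (x₀⁻¹ * o * x₀) := by
    intro c
    rw [hCs, Set.Finite.mem_toFinset, cosSet_base385 hS]
    rfl
  have hCs_card : Cs.card = cIndex U C (tw385 s x₀ δ₀) := by
    rw [cIndex_eq385, Set.ncard_eq_toFinset_card _ (cosSet_base_finite385 hS x₀)]
  -- choice of `o`
  have hoEx : ∀ c : Set Γ, ∃ o : Γ, c ∈ Cs → (C δ₀ o ∧ c = cos385 U (x₀⁻¹ * o * x₀)) := by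
    intro c
    by_cases hc : c ∈ Cs
    · obtain ⟨o, ho, hco⟩ := (hCs_mem c).1 hc
      exact ⟨o, fun _ => ⟨ho, hco⟩⟩
    · exact ⟨1, fun h => absurd h hc⟩
  choose oOf hoOf using hoEx
  -- choice of `y`
  have hyEx : ∀ z : Γ, ∃ y : Γ, (∃ h : Γ, tw385 s h δ₀ = δ₀ ∧ z = tw385 s (h * x₀) δ₁) →
      (y ∈ R₁ ∧ Ueq385 s U y z) := by
    intro z
    by_cases hz : ∃ h : Γ, tw385 s h δ₀ = δ₀ ∧ z = tw385 s (h * x₀) δ₁
    · obtain ⟨h, hh, rfl⟩ := hz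
      obtain ⟨y, hy, hyz⟩ := hcov h hh
      exact ⟨y, fun _ => ⟨hy, hyz⟩⟩
    · exact ⟨1, fun h => absurd h hz⟩
  choose yOf hyOf using hyEx
  set Ψ : Γ × Set Γ → Γ := fun p => yOf (tw385 s (p.1 * oOf p.2 * x₀) δ₁) with hΨ
  -- `Ψ` on `B`
  have hΨB : ∀ r ∈ Rm, ∀ c ∈ Cs, Ψ (r, c) ∈ R₁ ∧
      Ueq385 s U (Ψ (r, c)) (tw385 s (r * oOf c * x₀) δ₁) := by
    intro r hr c hc
    have ho := (hoOf c hc).1
    exact hyOf _ ⟨r * oOf c, H_mul385 (hRmH r hr) (Hc_sub385 hS ho), rfl⟩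
  have hmaps : ∀ p ∈ Rm ×ˢ Cs, Ψ p ∈ R₁.filter (fun y₁ => ∃ h u : Γ, tw385 s h δ₀ = δ₀ ∧ U u ∧
          y₁ = tw385 s (h * x₀ * u) δ₁) := by
    rintro ⟨r, c⟩ hp
    rw [Finset.mem_product] at hp
    obtain ⟨hr, hc⟩ := hp
    obtain ⟨h1, h2⟩ := hΨB r hr c hc
    rw [Finset.mem_filter]
    refine ⟨h1, ?_⟩
    obtain ⟨u, hu, hu2⟩ := Ueq_symm385 hS h2
    have ho := (hoOf c hc).1
    refine ⟨r * oOf c, u, H_mul385 (hRmH r hr) (Hc_sub385 hS ho), hu, ?_⟩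
    rw [tw_mul385]
    exact hu2
  have hcount := Finset.card_eq_sum_card_fiberwise hmaps
  rw [Finset.card_product, hcard, hCs_card] at hcount
  rw [hcount]
  refine Finset.sum_congr rfl ?_
  intro y₁ hy₁
  rw [Finset.mem_filter] at hy₁
  obtain ⟨hy₁R, h, u, hh, hu, hy₁eq⟩ := hy₁
  obtain ⟨r₁, hr₁, t, o₁, ht, ho₁, hdec⟩ := hRmcov h hh
  have ht' : tw385 s t δ₁ = δ₁ := ht
  have hr₁H : tw385 s r₁ δ₀ = δ₀ := hRmH r₁ hr₁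
  -- `y₁ = tw a δ₁`, `a = r₁ o₁ x₀ u`
  have hy₁a : y₁ = tw385 s (r₁ * o₁ * x₀ * u) δ₁ := by
    rw [hy₁eq, hdec]
    have e : t * r₁ * o₁ * x₀ * u = t * (r₁ * o₁ * x₀ * u) := by group
    rw [e, tw_mul385, ht']
  have hginj : Function.Injective
      (fun c' : Set Γ => ((r₁, (fun g => (x₀⁻¹ * o₁ * x₀ * u) * g) '' c') : Γ × Set Γ)) := by
    intro c c' hcc
    have h2 := (Prod.mk.injEq _ _ _ _).mp hcc
    exact image_injective385 (x₀⁻¹ * o₁ * x₀ * u) h2.2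
  have hset : ((Finset.filter (fun p => Ψ p = y₁) (Rm ×ˢ Cs) : Finset (Γ × Set Γ)) :
        Set (Γ × Set Γ))
      = (fun c' : Set Γ => ((r₁, (fun g => (x₀⁻¹ * o₁ * x₀ * u) * g) '' c') : Γ × Set Γ)) ''
          cosSet385 U C y₁ := by
    ext ⟨r, c⟩
    simp only [Finset.coe_filter, Finset.mem_product, Set.mem_ofPred_eq, Set.mem_image,
      Prod.mk.injEq]
    constructor
    · rintro ⟨⟨hr, hc⟩, hΨrc⟩
      obtain ⟨ho, hco⟩ := hoOf c hc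
      obtain ⟨-, hU⟩ := hΨB r hr c hc
      rw [hΨrc] at hU
      obtain ⟨u', hu', hu'eq⟩ := hU
      have hrH : tw385 s r δ₀ = δ₀ := hRmH r hr
      -- `tw (r o x₀) δ₁ = tw (a u') δ₁`
      have h1 : tw385 s (r * oOf c * x₀) δ₁ = tw385 s (r₁ * o₁ * x₀ * u * u') δ₁ := by
        rw [hu'eq, hy₁a, tw_mul385 s (r₁ * o₁ * x₀ * u) u']
        rfl
      have hT : tw385 s (r * oOf c * x₀ * (r₁ * o₁ * x₀ * u * u')⁻¹) δ₁ = δ₁ :=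
        (tw_eq_iff385 _ _ _).1 h1
      have hT0 : tw385 s (r * oOf c * x₀ * (r₁ * o₁ * x₀ * u * u')⁻¹) δ₀ = δ₀ := hS.sub _ hT
      -- `g₂ = o⁻¹ r⁻¹ t₂ r₁ o₁ = x₀ (u u')⁻¹ x₀⁻¹`
      have hg₂H : tw385 s (x₀ * (u * u')⁻¹ * x₀⁻¹) δ₀ = δ₀ := by
        have e : x₀ * (u * u')⁻¹ * x₀⁻¹
            = (oOf c)⁻¹ * (r⁻¹ * ((r * oOf c * x₀ * (r₁ * o₁ * x₀ * u * u')⁻¹) * (r₁ * o₁))) := by
          group
        rw [e]
        exact H_mul385 (H_inv385 (Hc_sub385 hS ho)) (H_mul385 (H_inv385 hrH)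
          (H_mul385 hT0 (H_mul385 hr₁H (Hc_sub385 hS ho₁))))
      have hg₂C : C δ₀ (x₀ * (u * u')⁻¹ * x₀⁻¹) := by
        refine hS.cpt _ x₀ hg₂H ?_
        have e : x₀⁻¹ * (x₀ * (u * u')⁻¹ * x₀⁻¹) * x₀ = (u * u')⁻¹ := by group
        rw [e]
        exact hS.U_inv _ (hS.U_mul _ _ hu hu')
      -- `o' = o g₂ o₁⁻¹ = r⁻¹ t₂ r₁`
      have ho' : C δ₀ (oOf c * (x₀ * (u * u')⁻¹ * x₀⁻¹) * o₁⁻¹) :=
        hS.C₀_mul _ _ (hS.C₀_mul _ _ ho hg₂C) (hS.C₀_inv _ ho₁)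
      have hrr : r = r₁ := by
        refine hRmuniq r hr r₁ hr₁ ⟨(r * oOf c * x₀ * (r₁ * o₁ * x₀ * u * u')⁻¹)⁻¹,
          oOf c * (x₀ * (u * u')⁻¹ * x₀⁻¹) * o₁⁻¹, H_inv385 hT, ho', ?_⟩
        group
      have ht₂C0 : C δ₀ (r * oOf c * x₀ * (r₁ * o₁ * x₀ * u * u')⁻¹) := by
        have e : r * oOf c * x₀ * (r₁ * o₁ * x₀ * u * u')⁻¹
            = r₁ * (oOf c * (x₀ * (u * u')⁻¹ * x₀⁻¹) * o₁⁻¹) * r₁⁻¹ := by
          rw [hrr]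
          group
        rw [e]
        exact normal'385 hS hr₁H ho'
      have ht₂C : C δ₁ (r * oOf c * x₀ * (r₁ * o₁ * x₀ * u * u')⁻¹) :=
        (hS.C₁_iff _).2 ⟨hT, ht₂C0⟩
      refine ⟨cos385 U ((r₁ * o₁ * x₀ * u)⁻¹ * (r * oOf c * x₀ * (r₁ * o₁ * x₀ * u * u')⁻¹)
        * (r₁ * o₁ * x₀ * u)), ?_, hrr.symm, ?_⟩
      · rw [hy₁a, cosSet_one385 hS]
        exact ⟨_, ht₂C, rfl⟩
      · rw [translate_cos385 hS x₀ r₁ o₁ u _ hu]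
        refine Eq.trans ?_ hco.symm
        rw [cos_eq_iff385 hS]
        have e : (x₀⁻¹ * (r₁⁻¹ * (r * oOf c * x₀ * (r₁ * o₁ * x₀ * u * u')⁻¹) * r₁ * o₁) * x₀)⁻¹
            * (x₀⁻¹ * oOf c * x₀) = u * u' := by
          rw [hrr]
          group
        rw [e]
        exact hS.U_mul _ _ hu hu'
    · rintro ⟨c', hc', rfl, rfl⟩
      rw [hy₁a, cosSet_one385 hS] at hc'
      obtain ⟨t', ht'C, rfl⟩ := hc'
      rw [translate_cos385 hS x₀ r₁ o₁ u t' hu]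
      have ht'0 : C δ₀ t' := ((hS.C₁_iff t').1 ht'C).2
      have ht'T : tw385 s t' δ₁ = δ₁ := ((hS.C₁_iff t').1 ht'C).1
      have ho'' : C δ₀ (r₁⁻¹ * t' * r₁ * o₁) :=
        hS.C₀_mul _ _ (hS.normal r₁ t' hr₁H ht'0) ho₁
      have hc : cos385 U (x₀⁻¹ * (r₁⁻¹ * t' * r₁ * o₁) * x₀) ∈ Cs :=
        (hCs_mem _).2 ⟨_, ho'', rfl⟩
      refine ⟨⟨hr₁, hc⟩, ?_⟩
      obtain ⟨ho, hco⟩ := hoOf _ hc
      obtain ⟨hΨR, hΨU⟩ := hΨB r₁ hr₁ _ hc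
      have hv : U ((x₀⁻¹ * (r₁⁻¹ * t' * r₁ * o₁) * x₀)⁻¹ *
          (x₀⁻¹ * oOf (cos385 U (x₀⁻¹ * (r₁⁻¹ * t' * r₁ * o₁) * x₀)) * x₀)) :=
        (cos_eq_iff385 hS _ _).1 hco
      refine (hR₁ y₁ hy₁R _ hΨR (Ueq_trans385 hS ?_ (Ueq_symm385 hS hΨU))).symm
      refine ⟨u⁻¹ * ((x₀⁻¹ * (r₁⁻¹ * t' * r₁ * o₁) * x₀)⁻¹ *
          (x₀⁻¹ * oOf (cos385 U (x₀⁻¹ * (r₁⁻¹ * t' * r₁ * o₁) * x₀)) * x₀)),
        hS.U_mul _ _ (hS.U_inv _ hu) hv, ?_⟩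
      have e : r₁ * oOf (cos385 U (x₀⁻¹ * (r₁⁻¹ * t' * r₁ * o₁) * x₀)) * x₀
          = t' * ((r₁ * o₁ * x₀ * u) * (u⁻¹ * ((x₀⁻¹ * (r₁⁻¹ * t' * r₁ * o₁) * x₀)⁻¹ *
          (x₀⁻¹ * oOf (cos385 U (x₀⁻¹ * (r₁⁻¹ * t' * r₁ * o₁) * x₀)) * x₀)))) := by
        group
      rw [e, tw_mul385, ht'T, tw_mul385, ← hy₁a]
      rfl
  rw [cIndex_eq385, ← Set.ncard_image_of_injective _ hginj, ← hset, Set.ncard_coe_finset]

/-- `φ` on the class of `δ₁` over `y₀ = tw x₀ δ₀`. -/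
theorem phi_fibre385 (hS : DescSetting385 s U C δ₀ δ₁ m) {φ : Γ → ℂ} (hφ : IsBiInv U φ)
    (hE : ∀ x : Γ, φ (x⁻¹ * δ₁ * s x) = φ (x⁻¹ * δ₀ * s x)) (x₀ h u : Γ)
    (hh : tw385 s h δ₀ = δ₀) (hu : U u) :
    φ (tw385 s (h * x₀ * u) δ₁) = φ (tw385 s x₀ δ₀) := by
  have h1 : φ (tw385 s (h * x₀ * u) δ₁) = φ (tw385 s (h * x₀ * u) δ₀) := hE _
  rw [h1]
  have e : h * x₀ * u = h * (x₀ * u) := by group
  rw [e, tw_mul385, hh]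
  exact phi_Ueq385 hS hφ (Ueq_tw385 hS x₀ u δ₀ hu)

open Classical in
/-- **D1: the abstract descent.** -/
theorem descAbs385 : DescAbsC385 := by
  intro Γ _ s U C δ₀ δ₁ m hS φ hφ hE c₀ c h₀ h₁
  obtain ⟨R₀, hR₀cl, hR₀pw, hR₀cov, rfl⟩ := h₀
  obtain ⟨R₁, hR₁cl, hR₁pw, hR₁cov, rfl⟩ := h₁
  -- the map `F` from the classes of `δ₁` to the classes of `δ₀`
  have hFex : ∀ y₁ : Γ, ∃ y₀ : Γ, (y₁ ∈ R₁ ∧ φ y₁ ≠ 0) →
      (y₀ ∈ R₀ ∧ ∃ x : Γ, y₁ = tw385 s x δ₁ ∧ Ueq385 s U y₀ (tw385 s x δ₀)) := by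
    intro y₁
    by_cases h : y₁ ∈ R₁ ∧ φ y₁ ≠ 0
    · obtain ⟨x, hx⟩ := hR₁cl y₁ h.1
      have hne : φ (x⁻¹ * δ₀ * s x) ≠ 0 := by
        rw [← hE x, ← hx]
        exact h.2
      obtain ⟨y', hy', u, hu, hyu⟩ := hR₀cov _ ⟨x, rfl⟩ hne
      exact ⟨y', fun _ => ⟨hy', x, hx, u, hu, hyu⟩⟩
    · exact ⟨1, fun h' => absurd h' h⟩
  choose F hF using hFex
  have hmapsF : ∀ y₁ ∈ R₁.filter (fun y => φ y ≠ 0), F y₁ ∈ R₀.filter (fun y => φ y ≠ 0) := by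
    intro y₁ hy₁
    rw [Finset.mem_filter] at hy₁ ⊢
    obtain ⟨hF1, x, hx, hUe⟩ := hF y₁ hy₁
    refine ⟨hF1, ?_⟩
    have h1 : φ (tw385 s x δ₀) = φ (F y₁) := phi_Ueq385 hS hφ hUe
    rw [← h1]
    have h2 : φ (tw385 s x δ₀) = φ y₁ := by
      rw [hx]
      exact (hE x).symm
    rw [h2]
    exact hy₁.2
  have hc1 : ∑ y ∈ R₁, φ y * (cIndex U C y : ℂ)
      = ∑ y ∈ R₁.filter (fun y => φ y ≠ 0), φ y * (cIndex U C y : ℂ) := by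
    symm
    apply Finset.sum_filter_of_ne
    intro y _ hy h0
    apply hy
    rw [h0, zero_mul]
  have hc0 : ∑ y ∈ R₀, φ y * (cIndex U C y : ℂ)
      = ∑ y ∈ R₀.filter (fun y => φ y ≠ 0), φ y * (cIndex U C y : ℂ) := by
    symm
    apply Finset.sum_filter_of_ne
    intro y _ hy h0
    apply hy
    rw [h0, zero_mul]
  rw [hc1, hc0, ← Finset.sum_fiberwise_of_maps_to hmapsF, Finset.mul_sum]
  refine Finset.sum_congr rfl ?_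
  intro y₀ hy₀
  rw [Finset.mem_filter] at hy₀
  obtain ⟨hy₀R, hy₀φ⟩ := hy₀
  obtain ⟨x₀, hx₀⟩ := hR₀cl y₀ hy₀R
  have hx₀' : y₀ = tw385 s x₀ δ₀ := hx₀
  -- the fibre of `F`
  have hfilter : (R₁.filter (fun y => φ y ≠ 0)).filter (fun y₁ => F y₁ = y₀)
      = R₁.filter (fun y₁ => ∃ h u : Γ, tw385 s h δ₀ = δ₀ ∧ U u ∧
          y₁ = tw385 s (h * x₀ * u) δ₁) := by
    ext y₁
    simp only [Finset.mem_filter]
    constructor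
    · rintro ⟨⟨hy₁R, hy₁φ⟩, hFy⟩
      refine ⟨hy₁R, ?_⟩
      obtain ⟨-, x, hx, hUe⟩ := hF y₁ ⟨hy₁R, hy₁φ⟩
      rw [hFy, hx₀'] at hUe
      obtain ⟨u, hu, hueq⟩ := hUe
      have h1 : tw385 s x δ₀ = tw385 s (x₀ * u) δ₀ := by
        rw [tw_mul385]
        exact hueq
      have h2 : tw385 s (x * (x₀ * u)⁻¹) δ₀ = δ₀ := (tw_eq_iff385 _ _ _).1 h1
      refine ⟨x * (x₀ * u)⁻¹, u, h2, hu, ?_⟩
      rw [hx]
      congr 1
      group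
    · rintro ⟨hy₁R, h, u, hh, hu, hy₁eq⟩
      have hφ1 : φ y₁ = φ y₀ := by
        rw [hy₁eq, hx₀']
        exact phi_fibre385 hS hφ hE x₀ h u hh hu
      have hy₁φ : φ y₁ ≠ 0 := by
        rw [hφ1]
        exact hy₀φ
      refine ⟨⟨hy₁R, hy₁φ⟩, ?_⟩
      obtain ⟨hF1, x', hx', hUe⟩ := hF y₁ ⟨hy₁R, hy₁φ⟩
      have h1 : tw385 s x' δ₀ = tw385 s (h * x₀ * u) δ₀ := by
        apply tw_base_eq385 hS
        rw [← hx', hy₁eq]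
      have h2 : tw385 s (h * x₀ * u) δ₀ = tw385 s u y₀ := by
        have e : h * x₀ * u = h * (x₀ * u) := by group
        rw [e, tw_mul385, hh, tw_mul385, ← hx₀']
      rw [h1, h2] at hUe
      have h3 : Ueq385 s U y₀ (tw385 s u y₀) := ⟨u, hu, rfl⟩
      exact (hR₀pw y₀ hy₀R _ hF1 (Ueq_trans385 hS h3 (Ueq_symm385 hS hUe))).symm
  rw [hfilter]
  have hcovx : ∀ h : Γ, tw385 s h δ₀ = δ₀ →
      ∃ y ∈ R₁, Ueq385 s U y (tw385 s (h * x₀) δ₁) := by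
    intro h hh
    have hne : φ (tw385 s (h * x₀) δ₁) ≠ 0 := by
      have := phi_fibre385 hS hφ hE x₀ h 1 hh hS.U_one
      rw [mul_one] at this
      rw [this, ← hx₀']
      exact hy₀φ
    obtain ⟨y', hy', u, hu, hyu⟩ := hR₁cov _ ⟨h * x₀, rfl⟩ hne
    exact ⟨y', hy', u, hu, hyu⟩
  have hfc := fibre_count385 hS x₀ R₁ hR₁pw hcovx
  have hsum : ∑ y₁ ∈ R₁.filter (fun y₁ => ∃ h u : Γ, tw385 s h δ₀ = δ₀ ∧ U u ∧
          y₁ = tw385 s (h * x₀ * u) δ₁), φ y₁ * (cIndex U C y₁ : ℂ)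
      = ∑ y₁ ∈ R₁.filter (fun y₁ => ∃ h u : Γ, tw385 s h δ₀ = δ₀ ∧ U u ∧
          y₁ = tw385 s (h * x₀ * u) δ₁), φ y₀ * (cIndex U C y₁ : ℂ) := by
    refine Finset.sum_congr rfl ?_
    intro y₁ hy₁
    rw [Finset.mem_filter] at hy₁
    obtain ⟨-, h, u, hh, hu, hy₁eq⟩ := hy₁
    rw [hy₁eq, hx₀']
    rw [phi_fibre385 hS hφ hE x₀ h u hh hu]
  rw [hsum, ← Finset.mul_sum, ← Nat.cast_sum, hfc, ← hx₀']
  push_cast
  ring

end Abs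

end Fermat.Agent.LT.T6.H385

end
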