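import Fermat.Agent.LT.T6.H385.DescSpec

/-!
# Row LT, tower T6, leaf T6.18i.6 `TwDescOrbC385`: the PROVED tops (helper385)

* `phiEq_of385 : PropBaseC385 → NormalSmallC385 → ConjSmallC385 → ShiftBackC385 → PhiEqC385`
* `twDescOrb_of385 : DescAbsC385 → QuatSettingC385 → PhiEqC385 → BaseOrbExC385 → TwDescOrbC385`
-/

set_option autoImplicit false

open scoped Matrix

noncomputable section

namespace Fermat.Agent.LT.T6.H385

open Fermat.Agent.LT.T6 Fermat.Agent.LT.T6.H783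

/-! ## Small lemmas on `InU` -/

section InU

variable {k' : Type} [Field k'] [Valued k' Γ₀]

theorem inU_mono385 {m m' : ℕ} (h : m ≤ m') {g : GL (Fin 2) k'} (hg : InU m' g) : InU m g := by
  intro a b
  have hle : WithZero.exp (-(m' : ℤ)) ≤ WithZero.exp (-(m : ℤ)) := by
    rw [WithZero.exp_le_exp]
    omega
  exact ⟨(hg a b).1.trans hle, (hg a b).2.trans hle⟩

theorem inU_inv385 {n : ℕ} {g : GL (Fin 2) k'} (hg : InU n g) : InU n g⁻¹ := by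
  intro a b
  refine ⟨(hg a b).2, ?_⟩
  rw [inv_inv]
  exact (hg a b).1

theorem inU_one385 (n : ℕ) : InU n (1 : GL (Fin 2) k') := by
  intro a b
  simp

theorem inU_glAut385 {s : k' ≃+* k'} (hs : ∀ y : k', Valued.v (s y) = Valued.v y) {n : ℕ}
    {g : GL (Fin 2) k'} (hg : InU n g) : InU n (glAut s g) := by
  have key : ∀ (h : GL (Fin 2) k') (a b : Fin 2),
      Valued.v (((glAut s h : GL (Fin 2) k') : Matrix (Fin 2) (Fin 2) k') a b
        - (1 : Matrix (Fin 2) (Fin 2) k') a b)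
      = Valued.v ((h : Matrix (Fin 2) (Fin 2) k') a b - (1 : Matrix (Fin 2) (Fin 2) k') a b) := by
    intro h a b
    have e1 : ((glAut s h : GL (Fin 2) k') : Matrix (Fin 2) (Fin 2) k') a b
        = s ((h : Matrix (Fin 2) (Fin 2) k') a b) := rfl
    have e2 : (1 : Matrix (Fin 2) (Fin 2) k') a b = s ((1 : Matrix (Fin 2) (Fin 2) k') a b) := by
      by_cases hab : a = b
      · subst hab
        simp
      · simp [Matrix.one_apply_ne hab]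
    rw [e1]
    conv_lhs => rw [e2]
    rw [← map_sub, hs]
  intro a b
  refine ⟨?_, ?_⟩
  · rw [key]
    exact (hg a b).1
  · rw [← map_inv, key]
    exact (hg a b).2

end InU

/-! ## `phiEq_of385` -/

section PhiEq

variable {k' : Type} [Field k'] [Valued k' Γ₀]

/-- The twisted conjugate of `w δ₀` by `d x₀ u`, `d` in the twisted centraliser of `δ₀`. -/
theorem twconj_split385 {Γ : Type} [Group Γ] (s : Γ →* Γ) (δ₀ w d x₀ u : Γ)
    (hd : d⁻¹ * δ₀ * s d = δ₀) :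
    (d * x₀ * u)⁻¹ * (w * δ₀) * s (d * x₀ * u)
      = u⁻¹ * ((x₀⁻¹ * (d⁻¹ * w * d) * x₀) * (x₀⁻¹ * δ₀ * s x₀)) * s u := by
  have hd' : δ₀ * s d = d * δ₀ := by
    calc δ₀ * s d = d * (d⁻¹ * δ₀ * s d) := by group
      _ = d * δ₀ := by rw [hd]
  rw [map_mul, map_mul]
  calc (d * x₀ * u)⁻¹ * (w * δ₀) * (s d * s x₀ * s u)
      = u⁻¹ * x₀⁻¹ * d⁻¹ * w * (δ₀ * s d) * s x₀ * s u := by group
    _ = u⁻¹ * x₀⁻¹ * d⁻¹ * w * (d * δ₀) * s x₀ * s u := by rw [hd']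
    _ = u⁻¹ * ((x₀⁻¹ * (d⁻¹ * w * d) * x₀) * (x₀⁻¹ * δ₀ * s x₀)) * s u := by group

theorem twconj_split_one385 {Γ : Type} [Group Γ] (s : Γ →* Γ) (δ₀ d x₀ u : Γ)
    (hd : d⁻¹ * δ₀ * s d = δ₀) :
    (d * x₀ * u)⁻¹ * δ₀ * s (d * x₀ * u) = u⁻¹ * (x₀⁻¹ * δ₀ * s x₀) * s u := by
  have h := twconj_split385 s δ₀ 1 d x₀ u hd
  simpa using h

theorem conjSmall_finset385 (hP3 : ConjSmallC385) (X : Finset (GL (Fin 2) k')) (n : ℕ) :
    ∃ M' : ℕ, ∀ x₀ ∈ X, ∀ g : GL (Fin 2) k', InU M' g → InU n (x₀⁻¹ * g * x₀) := by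
  classical
  choose Mf hMf using fun x₀ : GL (Fin 2) k' => hP3 k' x₀ n
  refine ⟨X.sup Mf, ?_⟩
  intro x₀ hx₀ g hg
  exact hMf x₀ g (inU_mono385 (Finset.le_sup hx₀) hg)

end PhiEq

/-- **`PhiEqC385` from its four leaves.** -/
theorem phiEq_of385 (hP1 : PropBaseC385) (hP2 : NormalSmallC385) (hP3 : ConjSmallC385)
    (hP4 : ShiftBackC385) : PhiEqC385 := by
  classical
  intro k k' _ _ _ _ q e i s n φ hbad z hz hnn δ₀ hδ₀
  have hq : QuadData385 k k' q e i s := ⟨hbad.hk, hbad.hk', hbad.ext⟩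
  obtain ⟨F, hF⟩ := hbad.supp
  obtain ⟨M₂, F'', hSB⟩ := hP4 k k' q e i s hq z hz hnn n δ₀ hδ₀ F
  obtain ⟨X₁, hX₁⟩ := hP1 k k' q e i s hq z hz hnn n δ₀ hδ₀ F
  obtain ⟨X₂, hX₂⟩ := hP1 k k' q e i s hq z hz hnn n δ₀ hδ₀ F''
  obtain ⟨M', hM'⟩ := conjSmall_finset385 hP3 (X₁ ∪ X₂) n
  obtain ⟨M₃, hM₃⟩ := hP2 k k' q e i s hq z hz hnn δ₀ hδ₀ M'
  refine ⟨max M₂ M₃, ?_⟩
  intro w hw hwU x
  have key : (∃ d x₀ u : GL (Fin 2) k', InTwCent s δ₀ d ∧ x₀ ∈ X₁ ∪ X₂ ∧ InU n u ∧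
      x = d * x₀ * u) →
      φ (x⁻¹ * (w * δ₀) * glAut s x) = φ (x⁻¹ * δ₀ * glAut s x) := by
    rintro ⟨d, x₀, u, hd, hx₀, hu, rfl⟩
    have hsmall : InU n (x₀⁻¹ * (d⁻¹ * w * d) * x₀) :=
      hM' x₀ hx₀ _ (hM₃ w d hw hd (inU_mono385 (le_max_right _ _) hwU))
    have hu1 : InU n u⁻¹ := inU_inv385 hu
    have hu2 : InU n (glAut s u) := inU_glAut385 hbad.ext.val_s hu
    rw [twconj_split385 (glAut s) δ₀ w d x₀ u hd, twconj_split_one385 (glAut s) δ₀ d x₀ u hd,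
      hbad.inv _ _ _ hu1 hu2, hbad.inv _ _ _ hu1 hu2]
    have h1 := hbad.inv (x₀⁻¹ * (d⁻¹ * w * d) * x₀) 1 (x₀⁻¹ * δ₀ * glAut s x₀) hsmall
      (inU_one385 n)
    rw [mul_one] at h1
    exact h1
  by_cases h0 : φ (x⁻¹ * δ₀ * glAut s x) = 0
  · by_cases h1 : φ (x⁻¹ * (w * δ₀) * glAut s x) = 0
    · rw [h0, h1]
    · have hg : InCosets385 n F (x⁻¹ * (w * δ₀) * glAut s x) := hF _ h1
      have hg0 := hSB w x hw (inU_mono385 (le_max_left _ _) hwU) hg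
      obtain ⟨d, x₀, u, hd, hx₀, hu, hx⟩ := hX₂ x hg0
      exact key ⟨d, x₀, u, hd, Finset.mem_union_right _ hx₀, hu, hx⟩
  · have hg0 : InCosets385 n F (x⁻¹ * δ₀ * glAut s x) := hF _ h0
    obtain ⟨d, x₀, u, hd, hx₀, hu, hx⟩ := hX₁ x hg0
    exact key ⟨d, x₀, u, hd, Finset.mem_union_left _ hx₀, hu, hx⟩

/-! ## `twDescOrb_of385` -/

theorem inTwCent_of_inQuat385 {k' : Type} [Field k'] {s : k' ≃+* k'} {δ₀ w : GL (Fin 2) k'}
    (h : InQuat385 s δ₀ w) : InTwCent s δ₀ w := by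
  unfold InQuat385 at h
  unfold InTwCent
  calc w⁻¹ * δ₀ * glAut s w = w⁻¹ * (δ₀ * glAut s w) := by group
    _ = w⁻¹ * (w * δ₀) := by rw [h]
    _ = δ₀ := by group

/-- **`TwDescOrbC385` from its four leaves.** -/
theorem twDescOrb_of385 (habs : DescAbsC385) (hset : QuatSettingC385) (hphi : PhiEqC385)
    (hex : BaseOrbExC385) : TwDescOrbC385 := by
  intro k k' _ _ _ _ q e i s n φ hbad z hz hnn
  have hq : QuadData385 k k' q e i s := ⟨hbad.hk, hbad.hk', hbad.ext⟩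
  have hdet : (!![0, i z; 1, 0] : Matrix (Fin 2) (Fin 2) k').det ≠ 0 := by
    rw [Matrix.det_fin_two_of]
    simpa using (map_ne_zero i).2 hz
  obtain ⟨δs, hδs⟩ : ∃ δs : GL (Fin 2) k', IsQuatBase385 (i z) δs :=
    ⟨Matrix.GeneralLinearGroup.mkOfDetNeZero _ hdet, rfl⟩
  obtain ⟨M, hM⟩ := hphi k k' q e i s n φ hbad z hz hnn δs hδs
  obtain ⟨c₀, hc₀⟩ := hex k k' q e i s n φ hbad z hz hnn δs hδs
  refine ⟨M, c₀, ?_⟩
  intro w δ₀ γ c hb hw hu hreg hell hconj hsum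
  have hδ : δ₀ = δs := Units.ext (hb.trans hδs.symm)
  subst hδ
  have hw' : InTwCent s δ₀ w := inTwCent_of_inQuat385 hw
  have hS := hset k k' q e i s hq z hz hnn n w δ₀ γ hb hw' hreg hell hconj
  have h1 := habs (GL (Fin 2) k') (glAut s) (InU n) (InTwCentC s) δ₀ (w * δ₀)
    (quatMultNat385 k γ) hS φ hbad.inv (hM w hw' hu) c₀ c hc₀ hsum
  rw [h1, quatMult385, if_neg hell, quatMultNat385, mul_comm]
  split_ifs <;> simp

end Fermat.Agent.LT.T6.H385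

end
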