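import Fermat.Agent.LT.T6.H385.QuatTop
import Fermat.Agent.LT.T6.H385.DescTop
import Fermat.Agent.LT.T6.H385.DescAbs
import Fermat.Agent.LT.T6.H392.SphFinSupp
import Fermat.Agent.LT.T6.H122.HypNonNorm
import Fermat.Agent.LT.T6.H497.SqrtNear
import Fermat.Agent.LT.T6.H844.EPOrb
import Fermat.Agent.LT.T6.H388.TwReduce
import Fermat.Agent.LT.T6.H382.BaseOrbEx
import Fermat.Agent.LT.T6.H886.ConjSmall
import Fermat.Agent.LT.T6.H355.ShiftBack
import Fermat.Agent.LT.T6.H665.PropBase
import Fermat.Agent.LT.T6.H621.NormalSmall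

/-!
# Row LT, tower T6, leaf T6.18i `CenQuatC783`: ASSEMBLY of the closed leaves (helper385, OFF-MAIN)

`cenQuat_closed385`: `H783.CenQuatC783` from

* the EXTERNAL leaves of tower T6 (other owners): `H288.CartanInvC`, `H60.OrbEllUnrC`,
  `H847.EllReduceC`, `H847.EllOrbC`, `H288.DiagReduceC`, `H288.OrbSumDiagC`, `H159.NormCritC`;
* the sub-leaves of T6.18i which are still OPEN: `QuatCoreRamC385` (station helper675: the
  tame leaves are closed, `QcWildC675` is open), `QuatSettingC385` (station helper558).

Everything else is PROVED and cited here: `sphFinSuppC392`, `hypNonNormC122`, `sqrtNearC497`,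
`epOrbC844`, `twReduce_of_sqrt388`, `baseOrbExC_of_propBase382`, `conjSmallC886`,
`shiftBackC355`, `propBaseC665`, `normalSmallC621`, `descAbs385` and the tops of `QuatTop.lean`, `DescTop.lean`.
-/

set_option autoImplicit false

noncomputable section

namespace Fermat.Agent.LT.T6.H385

open Fermat.Agent.LT.T6 Fermat.Agent.LT.T6.H783

/-- `PhiEqC385` from the two open leaves. -/
theorem phiEq_closed385 (hprop : PropBaseC385) (hns : NormalSmallC385) : PhiEqC385 :=
  phiEq_of385 hprop hns H886.conjSmallC886 H355.shiftBackC355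

/-- `TwDescOrbC385` from the open leaves. -/
theorem twDescOrb_closed385 (hset : QuatSettingC385) (hprop : PropBaseC385)
    (hns : NormalSmallC385) : TwDescOrbC385 :=
  twDescOrb_of385 descAbs385 hset (phiEq_closed385 hprop hns)
    (H382.baseOrbExC_of_propBase382 hprop)

/-- `TwDescC385` from the open leaves. -/
theorem twDesc_closed385 (hset : QuatSettingC385) (hprop : PropBaseC385)
    (hns : NormalSmallC385) : TwDescC385 :=
  twDesc_of_leaves385 (H388.twReduce_of_sqrt388 H497.sqrtNearC497)
    (twDescOrb_closed385 hset hprop hns)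

/-- `EllNormC385` from the open leaves. -/
theorem ellNorm_closed385 (hNC : H159.NormCritC) (hcore : QuatCoreRamC385) : EllNormC385 :=
  ellNorm_of_cases385 hNC (ellNormRam_of_core385 H497.sqrtNearC497 hcore)

/-- **T6.18i `CenQuatC783`** from the external leaves of T6 and the TWO open sub-leaves. -/
theorem cenQuat_closed2_385 (hci : H288.CartanInvC) (hU : H60.OrbEllUnrC)
    (hR : H847.EllReduceC) (hO : H847.EllOrbC) (hD : H288.DiagReduceC)
    (hS : H288.OrbSumDiagC) (hNC : H159.NormCritC)
    (hcore : QuatCoreRamC385) (hset : QuatSettingC385) : CenQuatC783 :=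
  cenQuat_of_leaves385 hci H392.sphFinSuppC392 (H844.epOrbC844 hU hR hO hD hS)
    H122.hypNonNormC122 (ellNorm_closed385 hNC hcore)
    (twDesc_closed385 hset H665.propBaseC665 H621.normalSmallC621)

/-- **T6.18i `CenQuatC783`** from the external leaves of T6 and the open sub-leaves. -/
theorem cenQuat_closed385 (hci : H288.CartanInvC) (hU : H60.OrbEllUnrC)
    (hR : H847.EllReduceC) (hO : H847.EllOrbC) (hD : H288.DiagReduceC)
    (hS : H288.OrbSumDiagC) (hNC : H159.NormCritC)
    (hcore : QuatCoreRamC385) (hset : QuatSettingC385) (hprop : PropBaseC385)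
    (hns : NormalSmallC385) : CenQuatC783 :=
  cenQuat_of_leaves385 hci H392.sphFinSuppC392 (H844.epOrbC844 hU hR hO hD hS)
    H122.hypNonNormC122 (ellNorm_closed385 hNC hcore) (twDesc_closed385 hset hprop hns)

end Fermat.Agent.LT.T6.H385

end
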