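import Fermat.Agent.LT.T6.H385.QuatSpec

/-!
# Row LT, tower T6, leaf T6.18i.6 `TwDescOrbC385` (twisted descent to `D^×`): SUB-SPEC
(helper385), OFF-MAIN

Definitions + frozen sub-leaf Props.  PROVED tops in `DescTop.lean`:

* `twDescOrb_of385 : DescAbsC385 → QuatSettingC385 → PhiEqC385 → BaseOrbExC385 → TwDescOrbC385`
* `phiEq_of385 : PropBaseC385 → NormalSmallC385 → ConjSmallC385 → ShiftBackC385 → PhiEqC385`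

## The statement in one line

`δ₀ = [[0, z], [1, 0]]`, `H = D^×` its twisted centraliser, `w ∈ H` close to `1`, `δ₁ = w δ₀`,
`N δ₁ = w² z ∼ γ` elliptic regular, `T = k[w]^×` the twisted centraliser of `δ₁`:

  `TO_{δ₁}(φ) = #(T \ H / H^c) · TO_{δ₀}(φ)`,   BOTH sides orbit sums in the sense of `T6/Spec`

(`TO_{δ₀}(φ) = ∑_{x₀ ∈ H \ G' / U'} φ(x₀⁻¹ δ₀ σ(x₀)) [H^c : H^c ∩ x₀ U' x₀⁻¹]`, `H^c = 𝒪_D^×`; the
relation `IsOrbSumGen` does not ask `N δ₀` to be regular).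

## The proof

1. `PhiEqC385`: `φ(x⁻¹ w δ₀ σ(x)) = φ(x⁻¹ δ₀ σ(x))` for ALL `x`, if `w ∈ H ∩ U'(M)`, `M` large.
   Write `g = x⁻¹ w δ₀ σ(x)`, `g₀ = x⁻¹ δ₀ σ(x)`, `w_x = x⁻¹ w x`, `g = w_x g₀`.
   * `PropBaseC385` (properness at `δ₀`): `g₀ ∈ F U'` ⇒ `x ∈ H X₀ U'`, `X₀` finite.
     (`x⁻¹ = d' [e₁ | g₀ e₁]` with `d' ∈ H`: for `y = [v | g₀ σ(v)]`, `g₀ σ(y) = y δ₀` because
     `g₀ σ(g₀) = z`.  With `g₀ = [[p, r], [t, u]]`: `N p + r σ(t) = z` and `N p / z ∉ 1 + 4ϖ𝒪`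
     (`z` is not a norm), so `|r σ(t)| ≥ |4 ϖ z|`: `t` is bounded from below, `[e₁ | g₀ e₁]
     = [[1, p], [0, t]]` runs over a compact subset of `GL₂(k')`.)
   * `ShiftBackC385`: `g ∈ F U'` ⇒ `g₀ ∈ F'' U'`.  (`η = w - 1 ∈ D`, `η² = τ η - ν` with
     `τ = tr η`, `ν = det η` small scalars; `η_x = x⁻¹ η x`, `g σ(g) = z w_x² = z ((1 - ν) + (2 + τ) η_x)`,
     so `η_x = (g σ(g) / z - 1 + ν) / (2 + τ)` is bounded on `F U'`; `det w_x = det w` is a unit;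
     `g₀ = w_x⁻¹ g` is bounded with `|det g₀| = |det g|`.)
   * `NormalSmallC385`: `d⁻¹ w d ∈ U'(M')` for all `d ∈ H`, if `w ∈ H ∩ U'(M)`.
     (`Nrd (w - 1) = N(a) - z N(b)` is invariant under conjugation and ANISOTROPIC with a
     constant: `|N a - z N b| ≥ |4ϖ| max(|N a|, |z N b|)`.)
   * `ConjSmallC385`: `x₀⁻¹ U'(M') x₀ ⊂ U'(n)`.
2. `BaseOrbExC385`: the orbit sum at `δ₀` exists (from `PropBaseC385`).
3. `QuatSettingC385`: the group theory of `H = D^×`, `H^c = 𝒪_D^×`, `T`, `T^c = T ∩ H^c`: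
   `H^c` is a normal subgroup of `H` (`D` is a division algebra: `Nrd d` integral ⇒ `Trd d`
   integral, H159.NewtonC), `H ∩ x U' x⁻¹ ⊂ H^c`, `[H^c : H^c ∩ x U' x⁻¹] < ∞`,
   `H / H^c = ℤ` via `ord Nrd` (`e = 2`: `Nrd ϖ' = N ϖ'`; `e = 1`: `ord z` is odd because units
   are norms), `T = k'[w²] ∩ H`, `ord Nrd (T) = ord N_{k[γ]/k}(k[γ]^×) = ℤ` or `2ℤ`.
4. `DescAbsC385`: the ABSTRACT descent (pure group theory): in any group, if `T ⊂ H`,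
   `T^c = T ∩ H^c`, `H^c ◁ H`, `H ∩ x U x⁻¹ ⊂ H^c` of finite index, `#(T \ H / H^c) = m` and
   `φ(x⁻¹ δ₁ s(x)) = φ(x⁻¹ δ₀ s(x))` for all `x`, then `TO_{δ₁}(φ) = m · TO_{δ₀}(φ)`.
   (The `U`-classes of the class of `δ₁` over the `U`-class of `x₀⁻¹ δ₀ s(x₀)` are the
   `T \ H / Γ`, `Γ = H ∩ x₀ U x₀⁻¹`, with weights `[T^c : T^c ∩ h Γ h⁻¹]`, and
   `∑_{h ∈ T \ H / Γ} [T^c : T^c ∩ h Γ h⁻¹] = m [H^c : Γ]`: count the points of `H / Γ` over a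
   system of representatives of `T \ H / H^c`; the `T`-orbit of a point meets the fibre of
   `H / Γ → H / H^c` in ONE `T^c`-orbit.)
-/

set_option autoImplicit false

open scoped Matrix

noncomputable section

namespace Fermat.Agent.LT.T6.H385

open Fermat.Agent.LT.T6 Fermat.Agent.LT.T6.H783

/-! ## The abstract descent -/

/-- The abstract setting: `H = {h : h⁻¹ δ₀ s(h) = δ₀}`, `H^c = {o : C δ₀ o}`,
`T = {t : t⁻¹ δ₁ s(t) = δ₁}`, `T^c = {t : C δ₁ t}`. -/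
structure DescSetting385 {Γ : Type} [Group Γ] (s : Γ →* Γ) (U : Γ → Prop) (C : Γ → Γ → Prop)
    (δ₀ δ₁ : Γ) (m : ℕ) : Prop where
  U_one : U 1
  U_mul : ∀ u v : Γ, U u → U v → U (u * v)
  U_inv : ∀ u : Γ, U u → U u⁻¹
  U_s : ∀ u : Γ, U u → U (s u)
  C_cent : ∀ y t : Γ, C y t → t⁻¹ * y * s t = y
  C_conj : ∀ y t x : Γ, C y t → C (x⁻¹ * y * s x) (x⁻¹ * t * x)
  C₀_one : C δ₀ 1
  C₀_mul : ∀ t t' : Γ, C δ₀ t → C δ₀ t' → C δ₀ (t * t')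
  C₀_inv : ∀ t : Γ, C δ₀ t → C δ₀ t⁻¹
  sub : ∀ t : Γ, t⁻¹ * δ₁ * s t = δ₁ → t⁻¹ * δ₀ * s t = δ₀
  C₁_iff : ∀ t : Γ, C δ₁ t ↔ (t⁻¹ * δ₁ * s t = δ₁ ∧ C δ₀ t)
  normal : ∀ h o : Γ, h⁻¹ * δ₀ * s h = δ₀ → C δ₀ o → C δ₀ (h⁻¹ * o * h)
  cpt : ∀ h x : Γ, h⁻¹ * δ₀ * s h = δ₀ → U (x⁻¹ * h * x) → C δ₀ h
  fin : ∀ x : Γ, {c : Set Γ | ∃ t : Γ, C δ₀ t ∧ c = {g : Γ | ∃ u : Γ, U u ∧ g = x⁻¹ * t * x * u}}.Finite
  reps : ∃ Rm : Finset Γ, Rm.card = m ∧ (∀ r ∈ Rm, r⁻¹ * δ₀ * s r = δ₀) ∧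
    (∀ h : Γ, h⁻¹ * δ₀ * s h = δ₀ →
      ∃ r ∈ Rm, ∃ t o : Γ, t⁻¹ * δ₁ * s t = δ₁ ∧ C δ₀ o ∧ h = t * r * o) ∧
    ∀ r ∈ Rm, ∀ r' ∈ Rm,
      (∃ t o : Γ, t⁻¹ * δ₁ * s t = δ₁ ∧ C δ₀ o ∧ r' = t * r * o) → r = r'

/-- **D1 (the abstract descent; pure group theory).** -/
def DescAbsC385 : Prop :=
  ∀ (Γ : Type) [Group Γ] (s : Γ →* Γ) (U : Γ → Prop) (C : Γ → Γ → Prop) (δ₀ δ₁ : Γ) (m : ℕ),
    DescSetting385 s U C δ₀ δ₁ m →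
    ∀ φ : Γ → ℂ, IsBiInv U φ →
      (∀ x : Γ, φ (x⁻¹ * δ₁ * s x) = φ (x⁻¹ * δ₀ * s x)) →
      ∀ c₀ c : ℂ, IsOrbSumGen s U C φ δ₀ c₀ → IsOrbSumGen s U C φ δ₁ c → c = (m : ℂ) * c₀

/-! ## The concrete setting -/

open Classical in
/-- `#(k[γ]^× \ D^× / 𝒪_D^×)` for elliptic `γ`, as a natural number. -/
def quatMultNat385 (k : Type) [Field k] [Valued k Γ₀] (γ : GL (Fin 2) k) : ℕ :=
  if HasRamUnif k γ then 1 else 2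

/-- **D2 (the group theory of `D^×`).** -/
def QuatSettingC385 : Prop :=
  ∀ (k k' : Type) [Field k] [Field k'] [Valued k Γ₀] [Valued k' Γ₀] (q e : ℕ)
    (i : k →+* k') (s : k' ≃+* k'), QuadData385 k k' q e i s →
    ∀ z : k, z ≠ 0 → ¬ IsFieldNorm783 2 i s z →
    ∀ (n : ℕ) (w δ₀ : GL (Fin 2) k') (γ : GL (Fin 2) k),
      IsQuatBase385 (i z) δ₀ → InTwCent s δ₀ w → IsReg γ → ¬ HasEigen k γ →
      IsConj (twNorm s 2 (w * δ₀)) (Matrix.GeneralLinearGroup.map i γ) →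
      DescSetting385 (glAut s) (InU n) (InTwCentC s) δ₀ (w * δ₀) (quatMultNat385 k γ)

/-- **D3 (`φ` does not see `w`).** -/
def PhiEqC385 : Prop :=
  ∀ (k k' : Type) [Field k] [Field k'] [Valued k Γ₀] [Valued k' Γ₀] (q e : ℕ)
    (i : k →+* k') (s : k' ≃+* k') (n : ℕ) (φ : GL (Fin 2) k' → ℂ),
    BadData783 k k' q 2 e i s n φ →
    ∀ z : k, z ≠ 0 → ¬ IsFieldNorm783 2 i s z →
    ∀ δ₀ : GL (Fin 2) k', IsQuatBase385 (i z) δ₀ →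
      ∃ M : ℕ, ∀ w : GL (Fin 2) k', InTwCent s δ₀ w → InU M w →
        ∀ x : GL (Fin 2) k',
          φ (x⁻¹ * (w * δ₀) * glAut s x) = φ (x⁻¹ * δ₀ * glAut s x)

/-- **D4 (the orbit sum at `δ₀` exists).** -/
def BaseOrbExC385 : Prop :=
  ∀ (k k' : Type) [Field k] [Field k'] [Valued k Γ₀] [Valued k' Γ₀] (q e : ℕ)
    (i : k →+* k') (s : k' ≃+* k') (n : ℕ) (φ : GL (Fin 2) k' → ℂ),
    BadData783 k k' q 2 e i s n φ →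
    ∀ z : k, z ≠ 0 → ¬ IsFieldNorm783 2 i s z →
    ∀ δ₀ : GL (Fin 2) k', IsQuatBase385 (i z) δ₀ → ∃ c₀ : ℂ, IsTwOrbSum s n φ δ₀ c₀

/-! ## The leaves of `PhiEqC385` -/

/-- `g` lies in `F · U(n)`. -/
def InCosets385 {k' : Type} [Field k'] [Valued k' Γ₀] (n : ℕ) (F : Finset (GL (Fin 2) k'))
    (g : GL (Fin 2) k') : Prop :=
  ∃ f ∈ F, ∃ u : GL (Fin 2) k', InU n u ∧ g = f * u

/-- **D3.1 (properness of the twisted orbit map at `δ₀`).** -/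
def PropBaseC385 : Prop :=
  ∀ (k k' : Type) [Field k] [Field k'] [Valued k Γ₀] [Valued k' Γ₀] (q e : ℕ)
    (i : k →+* k') (s : k' ≃+* k'), QuadData385 k k' q e i s →
    ∀ z : k, z ≠ 0 → ¬ IsFieldNorm783 2 i s z →
    ∀ (n : ℕ) (δ₀ : GL (Fin 2) k'), IsQuatBase385 (i z) δ₀ →
    ∀ F : Finset (GL (Fin 2) k'), ∃ X₀ : Finset (GL (Fin 2) k'),
      ∀ x : GL (Fin 2) k', InCosets385 n F (x⁻¹ * δ₀ * glAut s x) →
        ∃ d x₀ u : GL (Fin 2) k', InTwCent s δ₀ d ∧ x₀ ∈ X₀ ∧ InU n u ∧ x = d * x₀ * u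

/-- **D3.2 (small elements of `D^×` stay small under conjugation by `D^×`).** -/
def NormalSmallC385 : Prop :=
  ∀ (k k' : Type) [Field k] [Field k'] [Valued k Γ₀] [Valued k' Γ₀] (q e : ℕ)
    (i : k →+* k') (s : k' ≃+* k'), QuadData385 k k' q e i s →
    ∀ z : k, z ≠ 0 → ¬ IsFieldNorm783 2 i s z →
    ∀ δ₀ : GL (Fin 2) k', IsQuatBase385 (i z) δ₀ →
    ∀ M' : ℕ, ∃ M : ℕ, ∀ w d : GL (Fin 2) k', InTwCent s δ₀ w → InTwCent s δ₀ d →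
      InU M w → InU M' (d⁻¹ * w * d)

/-- **D3.3 (conjugation by a fixed element is continuous at `1`).** -/
def ConjSmallC385 : Prop :=
  ∀ (k' : Type) [Field k'] [Valued k' Γ₀] (x₀ : GL (Fin 2) k') (n : ℕ),
    ∃ M' : ℕ, ∀ g : GL (Fin 2) k', InU M' g → InU n (x₀⁻¹ * g * x₀)

/-- **D3.4 (from the class of `w δ₀` back to the class of `δ₀`).** -/
def ShiftBackC385 : Prop :=
  ∀ (k k' : Type) [Field k] [Field k'] [Valued k Γ₀] [Valued k' Γ₀] (q e : ℕ)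
    (i : k →+* k') (s : k' ≃+* k'), QuadData385 k k' q e i s →
    ∀ z : k, z ≠ 0 → ¬ IsFieldNorm783 2 i s z →
    ∀ (n : ℕ) (δ₀ : GL (Fin 2) k'), IsQuatBase385 (i z) δ₀ →
    ∀ F : Finset (GL (Fin 2) k'), ∃ (M₂ : ℕ) (F'' : Finset (GL (Fin 2) k')),
      ∀ w x : GL (Fin 2) k', InTwCent s δ₀ w → InU M₂ w →
        InCosets385 n F (x⁻¹ * (w * δ₀) * glAut s x) →
        InCosets385 n F'' (x⁻¹ * δ₀ * glAut s x)

end Fermat.Agent.LT.T6.H385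

end
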