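import Fermat.Agent.LT.T6.H385.QuatSpec

/-!
# Row LT, tower T6, leaf T6.18i `CenQuatC783`: the PROVED tops from the sub-leaves (helper385)

* `cenQuat_of_leaves385 : H288.CartanInvC → SphFinSuppC385 → EPOrbC385 → HypNonNormC385 →
    EllNormC385 → TwDescC385 → H783.CenQuatC783`
* `ellNorm_of_cases385 : H159.NormCritC → EllNormRamC385 → EllNormC385`
* `ellNormRam_of_core385 : SqrtNearC385 → QuatCoreRamC385 → EllNormRamC385`
* `twDesc_of_leaves385 : TwReduceC385 → TwDescOrbC385 → TwDescC385`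
-/

set_option autoImplicit false

open scoped Matrix

noncomputable section

namespace Fermat.Agent.LT.T6.H385

open Fermat.Agent.LT.T6 Fermat.Agent.LT.T6.H783

/-! ## Small lemmas -/

section Basic

variable {k : Type} [Field k] [Valued k Γ₀]

theorem inChiBall_mono385 {t d : k} {N N' : ℤ} (h : N ≤ N') {γ : GL (Fin 2) k}
    (hγ : InChiBall783 t d N' γ) : InChiBall783 t d N γ := by
  have hle : WithZero.exp (-N') ≤ WithZero.exp (-N) := by
    rw [WithZero.exp_le_exp]
    omega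
  exact ⟨hγ.1.trans hle, hγ.2.trans hle⟩

/-- Orbit sums of a constant multiple. -/
theorem orbSum_of_mul385 {Γ : Type} [Group Γ] {s : Γ →* Γ} {U : Γ → Prop} {C : Γ → Γ → Prop}
    {f : Γ → ℂ} {δ : Γ} {a c : ℂ} (ha : a ≠ 0)
    (h : IsOrbSumGen s U C (fun g => a * f g) δ c) : IsOrbSumGen s U C f δ (c / a) := by
  obtain ⟨R, h1, h2, h3, h4⟩ := h
  refine ⟨R, h1, h2, ?_, ?_⟩
  · intro y hy hne
    exact h3 y hy (mul_ne_zero ha hne)
  · rw [h4, Finset.sum_div]
    refine Finset.sum_congr rfl fun y _ => ?_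
    field_simp

theorem orbSum_zero_fun385 {Γ : Type} [Group Γ] {s : Γ →* Γ} {U : Γ → Prop} {C : Γ → Γ → Prop}
    {δ : Γ} {c : ℂ} (h : IsOrbSumGen s U C (fun _ => (0 : ℂ)) δ c) : c = 0 := by
  obtain ⟨R, -, -, -, h4⟩ := h
  rw [h4]
  simp

/-- Orbit sums only depend on the twisted conjugacy class of the base point. -/
theorem orbSum_twConj385 {Γ : Type} [Group Γ] {s : Γ →* Γ} {U : Γ → Prop} {C : Γ → Γ → Prop}
    {f : Γ → ℂ} {δ δ' : Γ} {c : ℂ} (x : Γ) (hx : δ' = x⁻¹ * δ * s x)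
    (h : IsOrbSumGen s U C f δ c) : IsOrbSumGen s U C f δ' c := by
  obtain ⟨R, h1, h2, h3, h4⟩ := h
  have key : ∀ y : Γ, (∃ x' : Γ, y = x'⁻¹ * δ' * s x') ↔ ∃ x' : Γ, y = x'⁻¹ * δ * s x' := by
    intro y
    constructor
    · rintro ⟨x', rfl⟩
      refine ⟨x * x', ?_⟩
      rw [hx, map_mul, mul_inv_rev]
      group
    · rintro ⟨x', rfl⟩
      refine ⟨x⁻¹ * x', ?_⟩
      rw [hx, map_mul, map_inv, mul_inv_rev, inv_inv]
      group
  refine ⟨R, fun y hy => (key y).2 (h1 y hy), h2, fun y hy hne => h3 y ((key y).1 hy) hne, h4⟩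

end Basic

/-! ## `twDesc_of_leaves385` -/

section Tw

variable {k k' : Type} [Field k] [Field k']

theorem glAut_glAut385 {l : ℕ} {i : k →+* k'} {s : k' ≃+* k'}
    (h : IsCyclicData k k' l i s) (hl : l = 2) (x : GL (Fin 2) k') :
    glAut s (glAut s x) = x := by
  apply Units.ext
  ext a b
  have h2 := h.order (x.val a b)
  rw [hl] at h2
  simpa [glAut, pow_two] using h2

theorem twNorm_two385 (s : k' ≃+* k') (δ : GL (Fin 2) k') :
    twNorm s 2 δ = δ * glAut s δ := by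
  simp [twNorm, twN]

theorem twNorm_twConj385 {l : ℕ} {i : k →+* k'} {s : k' ≃+* k'}
    (h : IsCyclicData k k' l i s) (hl : l = 2) (δ x : GL (Fin 2) k') :
    twNorm s 2 (x⁻¹ * δ * glAut s x) = x⁻¹ * twNorm s 2 δ * x := by
  rw [twNorm_two385, twNorm_two385, map_mul, map_mul, map_inv, glAut_glAut385 h hl]
  group

end Tw

/-- **`TwDescC385` from its two leaves.** -/
theorem twDesc_of_leaves385 (hr : TwReduceC385) (ho : TwDescOrbC385) : TwDescC385 := by
  intro k k' _ _ _ _ q e i s n φ hbad z hz hnn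
  obtain ⟨M, c₀, hM⟩ := ho k k' q e i s n φ hbad z hz hnn
  obtain ⟨N, hN⟩ := hr k k' q e i s ⟨hbad.hk, hbad.hk', hbad.ext⟩ z hz hnn M
  refine ⟨N, c₀, ?_⟩
  intro δ γ c hreg hball hell hconj hsum
  obtain ⟨w, δ₀, hb, hq, hu, x, hx⟩ := hN δ γ hreg hball hconj
  refine hM w δ₀ γ c hb hq hu hreg hell ?_ ?_
  · rw [hx, twNorm_twConj385 hbad.ext.cyc rfl]
    have h1 : IsConj (x⁻¹ * twNorm s 2 δ * x) (twNorm s 2 δ) := by
      rw [isConj_iff]
      exact ⟨x, by group⟩
    exact h1.trans hconj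
  · exact orbSum_twConj385 x hx hsum

/-! ## `ellNorm_of_cases385` -/

theorem e_cases385 {k k' : Type} [Field k] [Field k'] [Valued k Γ₀] [Valued k' Γ₀]
    {q e : ℕ} {i : k →+* k'} {s : k' ≃+* k'} (h : QuadData385 k k' q e i s) :
    e = 1 ∨ e = 2 := by
  have h1 : 1 < q ^ (2 / e) := H159.one_lt_of_isLocalField h.hk'
  have h2 : 0 < e := h.ext.e_pos
  have h3 : 2 / e ≠ 0 := by
    intro h0
    rw [h0, pow_zero] at h1
    exact lt_irrefl _ h1
  have h4 : e ≤ 2 := by
    by_contra hlt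
    exact h3 (Nat.div_eq_of_lt (by omega))
  omega

theorem val_det_of_ball385 {k : Type} [Field k] [Valued k Γ₀] {z : k} (hz : z ≠ 0)
    {γ : GL (Fin 2) k}
    (hγ : InChiBall783 (2 * z) (z ^ 2) (-(2 * WithZero.log (Valued.v z)) + 1) γ) :
    Valued.v (γ : Matrix (Fin 2) (Fin 2) k).det = Valued.v (z ^ 2) := by
  have hvz : Valued.v z ≠ 0 := (Valuation.ne_zero_iff _).2 hz
  have h1 : Valued.v ((γ : Matrix (Fin 2) (Fin 2) k).det - z ^ 2) < Valued.v (z ^ 2) := by
    refine lt_of_le_of_lt hγ.2 ?_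
    have hz2 : Valued.v (z ^ 2) = WithZero.exp (2 * WithZero.log (Valued.v z)) := by
      rw [map_pow, ← WithZero.exp_log hvz, ← WithZero.exp_nsmul, WithZero.log_exp]
      simp
    rw [hz2, WithZero.exp_lt_exp]
    omega
  exact Valuation.map_eq_of_sub_lt _ h1

/-- **`EllNormC385` from the unramified norm criterion and the ramified case.** -/
theorem ellNorm_of_cases385 (hc : H159.NormCritC) (hr : EllNormRamC385) : EllNormC385 := by
  intro k k' _ _ _ _ q e i s hq z hz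
  rcases e_cases385 hq with he | he
  · subst he
    refine ⟨-(2 * WithZero.log (Valued.v z)) + 1, ?_⟩
    intro γ hreg hball hell
    have hk' : IsLocalField k' (q ^ 2) := by
      have := hq.hk'
      simpa using this
    refine hc k k' q 2 i s hq.hk hk' hq.ext Nat.prime_two γ hreg ?_ ?_
    · rw [val_det_of_ball385 hz hball, map_pow, WithZero.log_pow]
      exact ⟨WithZero.log (Valued.v z), by simp⟩
    · intro t ht
      exact absurd ⟨t, ht⟩ hell
  · subst he
    exact hr k k' q i s hq z hz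

/-! ## `ellNormRam_of_core385` -/

section Core

variable {k k' : Type} [Field k] [Field k']

theorem coe_map385 (i : k →+* k') (g : GL (Fin 2) k) (x y : Fin 2) :
    ((Matrix.GeneralLinearGroup.map i g : GL (Fin 2) k') : Matrix (Fin 2) (Fin 2) k') x y
      = i ((g : Matrix (Fin 2) (Fin 2) k) x y) := rfl

theorem coe_glAut385 (s : k' ≃+* k') (g : GL (Fin 2) k') (x y : Fin 2) :
    ((glAut s g : GL (Fin 2) k') : Matrix (Fin 2) (Fin 2) k') x y
      = s ((g : Matrix (Fin 2) (Fin 2) k') x y) := rfl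

theorem map_one_entry385 {R S : Type} [CommRing R] [CommRing S] (f : R →+* S) (x y : Fin 2) :
    f ((1 : Matrix (Fin 2) (Fin 2) R) x y) = (1 : Matrix (Fin 2) (Fin 2) S) x y := by
  by_cases h : x = y
  · subst h
    simp
  · simp [Matrix.one_apply_ne h]

/-- The norm of `ζ · w`, `ζ ∈ k'[γ]`, `w ∈ k[γ]`. -/
theorem norm_mul_poly385 {l : ℕ} {i : k →+* k'} {s : k' ≃+* k'} (h : IsCyclicData k k' l i s)
    (γ w : GL (Fin 2) k) (ζ : GL (Fin 2) k') (a b z : k) (a' b' : k') (hz : z ≠ 0)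
    (hw : (w : Matrix (Fin 2) (Fin 2) k) = a • (1 : Matrix (Fin 2) (Fin 2) k)
      + b • (γ : Matrix (Fin 2) (Fin 2) k))
    (hw2 : (w : Matrix (Fin 2) (Fin 2) k) * (w : Matrix (Fin 2) (Fin 2) k)
      = z⁻¹ • (γ : Matrix (Fin 2) (Fin 2) k))
    (hζ : (ζ : Matrix (Fin 2) (Fin 2) k') = a' • (1 : Matrix (Fin 2) (Fin 2) k')
      + b' • ((Matrix.GeneralLinearGroup.map i γ : GL (Fin 2) k') : Matrix (Fin 2) (Fin 2) k'))
    (hζ2 : (ζ : Matrix (Fin 2) (Fin 2) k') * ((glAut s ζ : GL (Fin 2) k') :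
      Matrix (Fin 2) (Fin 2) k') = (i z) • (1 : Matrix (Fin 2) (Fin 2) k')) :
    twNorm s 2 (ζ * Matrix.GeneralLinearGroup.map i w) = Matrix.GeneralLinearGroup.map i γ := by
  rw [twNorm_two385]
  apply Units.ext
  set G : Matrix (Fin 2) (Fin 2) k' :=
    ((Matrix.GeneralLinearGroup.map i γ : GL (Fin 2) k') : Matrix (Fin 2) (Fin 2) k') with hG
  have hW : ((Matrix.GeneralLinearGroup.map i w : GL (Fin 2) k') : Matrix (Fin 2) (Fin 2) k')
      = i a • (1 : Matrix (Fin 2) (Fin 2) k') + i b • G := by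
    ext x y
    rw [coe_map385, hw]
    simp only [Matrix.add_apply, Matrix.smul_apply, smul_eq_mul, map_add, map_mul]
    rw [map_one_entry385, hG, coe_map385]
  have hσW : ((glAut s (Matrix.GeneralLinearGroup.map i w) : GL (Fin 2) k') :
      Matrix (Fin 2) (Fin 2) k') = i a • (1 : Matrix (Fin 2) (Fin 2) k') + i b • G := by
    rw [← hW]
    ext x y
    rw [coe_glAut385, coe_map385, h.fix_i]
  have hσZ : ((glAut s ζ : GL (Fin 2) k') : Matrix (Fin 2) (Fin 2) k')
      = s a' • (1 : Matrix (Fin 2) (Fin 2) k') + s b' • G := by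
    ext x y
    rw [coe_glAut385, hζ]
    simp only [Matrix.add_apply, Matrix.smul_apply, smul_eq_mul, map_add, map_mul]
    have h1 : s ((1 : Matrix (Fin 2) (Fin 2) k') x y) = (1 : Matrix (Fin 2) (Fin 2) k') x y :=
      map_one_entry385 (s : k' →+* k') x y
    rw [h1, hG, coe_map385, h.fix_i]
  have hWW : (i a • (1 : Matrix (Fin 2) (Fin 2) k') + i b • G)
      * (i a • (1 : Matrix (Fin 2) (Fin 2) k') + i b • G) = (i z)⁻¹ • G := by
    rw [← hW]
    ext x y
    have e1 := congrFun (congrFun hw2 x) y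
    simp only [Matrix.mul_apply, Fin.sum_univ_two, Matrix.smul_apply, smul_eq_mul] at e1
    simp only [Matrix.mul_apply, Fin.sum_univ_two, Matrix.smul_apply, smul_eq_mul, coe_map385,
      hG]
    rw [← map_mul, ← map_mul, ← map_add, e1, map_mul, map_inv₀]
  have hcomm : (ζ : Matrix (Fin 2) (Fin 2) k') * (i a • (1 : Matrix (Fin 2) (Fin 2) k') + i b • G)
      * (((glAut s ζ : GL (Fin 2) k') : Matrix (Fin 2) (Fin 2) k')
        * (i a • (1 : Matrix (Fin 2) (Fin 2) k') + i b • G))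
      = ((ζ : Matrix (Fin 2) (Fin 2) k') * ((glAut s ζ : GL (Fin 2) k') :
          Matrix (Fin 2) (Fin 2) k'))
        * ((i a • (1 : Matrix (Fin 2) (Fin 2) k') + i b • G)
          * (i a • (1 : Matrix (Fin 2) (Fin 2) k') + i b • G)) := by
    rw [hσZ, hζ]
    simp only [add_mul, mul_add, smul_mul_assoc, mul_smul_comm, one_mul, mul_one, smul_add,
      smul_smul, mul_assoc]
    module
  have hiz : i z ≠ 0 := (map_ne_zero i).2 hz
  calc ((ζ * Matrix.GeneralLinearGroup.map i w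
        * glAut s (ζ * Matrix.GeneralLinearGroup.map i w) : GL (Fin 2) k') :
          Matrix (Fin 2) (Fin 2) k')
      = (ζ : Matrix (Fin 2) (Fin 2) k') * (i a • (1 : Matrix (Fin 2) (Fin 2) k') + i b • G)
        * (((glAut s ζ : GL (Fin 2) k') : Matrix (Fin 2) (Fin 2) k')
          * (i a • (1 : Matrix (Fin 2) (Fin 2) k') + i b • G)) := by
        rw [map_mul, Units.val_mul, Units.val_mul, Units.val_mul, hW, hσW]
    _ = G := by
        rw [hcomm, hζ2, hWW, smul_mul_assoc, one_mul, smul_smul, mul_inv_cancel₀ hiz, one_smul]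

end Core

/-- **`EllNormRamC385` from the square root and the class field theory core.** -/
theorem ellNormRam_of_core385 (hs : SqrtNearC385) (hc : QuatCoreRamC385) : EllNormRamC385 := by
  intro k k' _ _ _ _ q i s hq z hz
  obtain ⟨N, hN⟩ := hs k q hq.hk z hz 0
  refine ⟨N, ?_⟩
  intro γ hreg hball hell
  obtain ⟨w, a, b, hw, hw2, -⟩ := hN γ hball
  obtain ⟨ζ, a', b', hζ, hζ2⟩ := hc k k' q i s hq z hz γ hreg hell
  refine ⟨ζ * Matrix.GeneralLinearGroup.map i w, ?_⟩
  rw [norm_mul_poly385 hq.ext.cyc γ w ζ a b z a' b' hz hw hw2 hζ hζ2]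

/-! ## `cenQuat_of_leaves385` -/

theorem isBiInv_sph385 (hci : H288.CartanInvC) {k : Type} [Field k] [Valued k Γ₀]
    (F : ℤ × ℤ → ℂ) : IsBiInv (InU 0) (fun g : GL (Fin 2) k => F (cartan g)) := by
  intro u u' g hu hu'
  show F (cartan (u * g * u')) = F (cartan g)
  rw [hci k u u' g hu hu']

/-- The orbit sum of `c₀ · f₀` from the orbit sum of `f₀`. -/
theorem orbSum_scaled385 {k : Type} [Field k] [Valued k Γ₀] {f : GL (Fin 2) k → ℂ}
    {γ : GL (Fin 2) k} {c₀ c' v : ℂ}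
    (hv : ∀ c : ℂ, IsOrbSum 0 f γ c → c = v)
    (h : IsOrbSum 0 (fun g => c₀ * f g) γ c') : c' = c₀ * v := by
  by_cases h0 : c₀ = 0
  · subst h0
    have h' : IsOrbSumGen (glAut (RingEquiv.refl k)) (InU 0) (InTwCentC (RingEquiv.refl k))
        (fun _ => (0 : ℂ)) γ c' := by
      have e : (fun g : GL (Fin 2) k => (0 : ℂ) * f g) = fun _ => (0 : ℂ) := by
        funext g
        simp
      rw [← e]
      exact h
    rw [orbSum_zero_fun385 h', zero_mul]
  · have h1 : IsOrbSum 0 f γ (c' / c₀) := orbSum_of_mul385 h0 h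
    have h2 := hv _ h1
    rw [← h2]
    field_simp

/-- **THE TOP: `CenQuatC783` from the six leaves.** -/
theorem cenQuat_of_leaves385 (hci : H288.CartanInvC) (hfs : SphFinSuppC385) (hep : EPOrbC385)
    (hhyp : HypNonNormC385) (hell : EllNormC385) (htw : TwDescC385) : CenQuatC783 := by
  intro k k' _ _ _ _ q e i s n φ hbad z hz hnn
  have hq : QuadData385 k k' q e i s := ⟨hbad.hk, hbad.hk', hbad.ext⟩
  obtain ⟨N₁, hN₁⟩ := hep k q hbad.hk z hz
  obtain ⟨N₂, hN₂⟩ := hhyp k k' q e i s hq z hz hnn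
  obtain ⟨N₃, hN₃⟩ := hell k k' q e i s hq z hz
  obtain ⟨N₄, c₀, hN₄⟩ := htw k k' q e i s n φ hbad z hz hnn
  have le1 : N₁ ≤ max (max N₁ N₂) (max N₃ N₄) := le_max_of_le_left (le_max_left _ _)
  have le2 : N₂ ≤ max (max N₁ N₂) (max N₃ N₄) := le_max_of_le_left (le_max_right _ _)
  have le3 : N₃ ≤ max (max N₁ N₂) (max N₃ N₄) := le_max_of_le_right (le_max_left _ _)
  have le4 : N₄ ≤ max (max N₁ N₂) (max N₃ N₄) := le_max_of_le_right (le_max_right _ _)
  refine ⟨max (max N₁ N₂) (max N₃ N₄), 0,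
    fun g => c₀ * epFun385 q (ord385 z) (cartan g), ?_, ?_, ?_, ?_⟩
  · exact isBiInv_sph385 hci (fun lam => c₀ * epFun385 q (ord385 z) lam)
  · obtain ⟨F, hF⟩ := hfs k q hbad.hk (epFun385 q (ord385 z))
    refine ⟨F, fun g hg => hF g ?_⟩
    intro h0
    apply hg
    have h0' : epFun385 q (ord385 z) (cartan g) = 0 := h0
    show c₀ * epFun385 q (ord385 z) (cartan g) = 0
    rw [h0', mul_zero]
  · intro δ γ c c' hreg hball hconj hc hc'
    have hne : ¬ HasEigen k γ :=
      fun h => hN₂ γ hreg (inChiBall_mono385 le2 hball) h ⟨δ, hconj⟩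
    rw [hN₄ δ γ c hreg (inChiBall_mono385 le4 hball) hne hconj hc]
    exact (orbSum_scaled385 (fun c h => hN₁ γ hreg (inChiBall_mono385 le1 hball) c h) hc').symm
  · intro γ c' hreg hball hnn' hc'
    have hE : HasEigen k γ := by
      by_contra h
      exact hnn' (hN₃ γ hreg (inChiBall_mono385 le3 hball) h)
    have h1 := orbSum_scaled385 (fun c h => hN₁ γ hreg (inChiBall_mono385 le1 hball) c h) hc'
    rw [h1, quatMult385, if_pos hE, mul_zero]

end Fermat.Agent.LT.T6.H385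

end
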